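import Fermat.Agent.H40.MW.Duality
import Fermat.Agent.H92.MW.CoreInterfaces

/-!
# P-MW: the rows (K3) `SmallVectorStatement`, (K5) `PluckerDualityStatement` and
`PluckerDualityHeightStatement` of helper92's core interfaces

The Plücker vector `plucker A` (indexed by all maps `Fin l → Fin n`) and `minorVec A` (indexed by
the `l`-subsets of the columns) have the same entries up to signs and zeros, hence the same
height.
-/

set_option autoImplicit false

namespace Fermat.Agent.H40.MW

open Matrix Height Fermat.Agent.H92.MW

section minorVec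

variable {K : Type*} [Field K] {l n : ℕ}

lemma minorVec_eq_plucker (A : Matrix (Fin l) (Fin n) K)
    (s : {s : Finset (Fin n) // s.card = l}) :
    minorVec A s = plucker A (s.1.orderEmbOfFin s.2) := rfl

/-- An injective column selection is an increasing one composed with a permutation. -/
lemma exists_perm_orderEmbOfFin (e : Fin l → Fin n) (he : Function.Injective e) :
    ∃ (s : {s : Finset (Fin n) // s.card = l}) (π : Equiv.Perm (Fin l)),
      e = (s.1.orderEmbOfFin s.2) ∘ π := by
  classical
  have hcard : (Finset.univ.image e).card = l := by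
    rw [Finset.card_image_of_injective _ he]
    simp
  set s : Finset (Fin n) := Finset.univ.image e with hs
  have hmem : ∀ i, e i ∈ s := fun i => Finset.mem_image_of_mem e (Finset.mem_univ i)
  let f : Fin l → Fin l := fun i => (s.orderIsoOfFin hcard).symm ⟨e i, hmem i⟩
  have hf : Function.Injective f := by
    intro i j hij
    have := (s.orderIsoOfFin hcard).symm.injective hij
    exact he (Subtype.ext_iff.mp this)
  have hbij : Function.Bijective f := Finite.injective_iff_bijective.mp hf
  refine ⟨⟨s, hcard⟩, Equiv.ofBijective f hbij, ?_⟩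
  ext i
  simp only [Function.comp_apply, Equiv.ofBijective_apply, f]
  rw [← Finset.coe_orderIsoOfFin_apply, OrderIso.apply_symm_apply]

/-- The value of the Plücker vector at an arbitrary column selection is zero or, up to sign, an
entry of `minorVec`. -/
lemma plucker_eq_zero_or_minorVec (A : Matrix (Fin l) (Fin n) K) (e : Fin l → Fin n) :
    plucker A e = 0 ∨ ∃ s, plucker A e = minorVec A s ∨ plucker A e = -minorVec A s := by
  by_cases h0 : plucker A e = 0
  · exact Or.inl h0
  · right
    obtain ⟨s, π, hπ⟩ := exists_perm_orderEmbOfFin e (injective_of_plucker_ne_zero A e h0)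
    refine ⟨s, ?_⟩
    have h1 : plucker A e = (Equiv.Perm.sign π : ℤ) * minorVec A s := by
      rw [plucker, hπ, minorVec]
      have : A.submatrix id ((s.1.orderEmbOfFin s.2) ∘ π) =
          (A.submatrix id (s.1.orderEmbOfFin s.2)).submatrix id π := by
        ext i j
        simp
      rw [this, Matrix.det_permute']
    rcases Int.units_eq_one_or (Equiv.Perm.sign π) with h | h
    · left
      rw [h1, h]
      simp
    · right
      rw [h1, h]
      simp

variable [AdmissibleAbsValues K]

/-- `minorVec` and `plucker` have the same height. -/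
theorem mulHeight_minorVec (A : Matrix (Fin l) (Fin n) K) :
    mulHeight (minorVec A) = mulHeight (plucker A) := by
  classical
  by_cases hA : plucker A = 0
  · have h1 : minorVec A = 0 := by
      ext s
      rw [minorVec_eq_plucker, hA]
      rfl
    rw [hA, h1, mulHeight_zero, mulHeight_zero]
  have hA' : minorVec A ≠ 0 := by
    intro h0
    apply hA
    ext e
    rcases plucker_eq_zero_or_minorVec A e with h | ⟨s, h | h⟩
    · exact h
    · rw [h, h0]; rfl
    · rw [h, h0]; simp
  obtain ⟨s₀, hs₀⟩ := Function.ne_iff.mp hA'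
  have : Nonempty {s : Finset (Fin n) // s.card = l} := ⟨s₀⟩
  have : Nonempty (Fin l → Fin n) := ⟨s₀.1.orderEmbOfFin s₀.2⟩
  apply le_antisymm
  · exact mulHeight_comp_le (fun s : {s : Finset (Fin n) // s.card = l} =>
      (s.1.orderEmbOfFin s.2 : Fin l → Fin n)) (plucker A)
  · refine mulHeight_le_of_forall_iSup_le hA hA' fun v => ?_
    refine ciSup_le fun e => ?_
    rcases plucker_eq_zero_or_minorVec A e with h | ⟨s, h | h⟩
    · rw [h, map_zero]
      exact Real.iSup_nonneg fun s => v.nonneg _
    · rw [h]
      exact Finite.le_ciSup (fun s => v (minorVec A s)) s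
    · rw [h, v.map_neg]
      exact Finite.le_ciSup (fun s => v (minorVec A s)) s

theorem logHeight_minorVec (A : Matrix (Fin l) (Fin n) K) :
    logHeight (minorVec A) = logHeight (plucker A) := by
  rw [logHeight, logHeight, mulHeight_minorVec]

end minorVec

/-- Row (K3): the small vector statement. -/
theorem smallVectorStatement : SmallVectorStatement := by
  intro l n A hl hA
  have hl' : 0 < l := hl
  obtain ⟨c, hc, -, hH⟩ := exists_small_vector_log hl' A
    (exists_minor_ne_zero_of_linearIndependent A hA)
  refine ⟨c, hc, ?_⟩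
  have hlR : (0 : ℝ) < l := by exact_mod_cast hl'
  rw [logHeight_minorVec, div_add' _ _ _ hlR.ne', le_div_iff₀ hlR]
  have : plucker A = fun e : Fin l → Fin n => (A.submatrix id e).det := rfl
  rw [this]
  linarith

/-- Two complementary subsets of the columns give a bijection `Fin l ⊕ Fin d ≃ Fin n`. -/
lemma exists_equiv_of_compl {l d n : ℕ} (hn : l + d = n)
    (s : {s : Finset (Fin n) // s.card = l}) (s' : {s : Finset (Fin n) // s.card = d})
    (hs : (s'.1 : Finset (Fin n)) = (s.1)ᶜ) :
    ∃ σ : Fin l ⊕ Fin d ≃ Fin n, (σ ∘ Sum.inl = s.1.orderEmbOfFin s.2) ∧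
      (σ ∘ Sum.inr = s'.1.orderEmbOfFin s'.2) := by
  classical
  set f : Fin l ⊕ Fin d → Fin n :=
    Sum.elim (s.1.orderEmbOfFin s.2) (s'.1.orderEmbOfFin s'.2) with hf
  have hinj : Function.Injective f := by
    rintro (i | i) (j | j) hij
    · simp only [hf, Sum.elim_inl] at hij
      rw [(s.1.orderEmbOfFin s.2).injective hij]
    · exfalso
      simp only [hf, Sum.elim_inl, Sum.elim_inr] at hij
      have h1 : s.1.orderEmbOfFin s.2 i ∈ s.1 := Finset.orderEmbOfFin_mem _ _ _
      have h2 : s'.1.orderEmbOfFin s'.2 j ∈ s'.1 := Finset.orderEmbOfFin_mem _ _ _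
      have h3 : s'.1.orderEmbOfFin s'.2 j ∈ (s.1)ᶜ := hs ▸ h2
      rw [← hij, Finset.mem_compl] at h3
      exact h3 h1
    · exfalso
      simp only [hf, Sum.elim_inl, Sum.elim_inr] at hij
      have h1 : s.1.orderEmbOfFin s.2 j ∈ s.1 := Finset.orderEmbOfFin_mem _ _ _
      have h2 : s'.1.orderEmbOfFin s'.2 i ∈ s'.1 := Finset.orderEmbOfFin_mem _ _ _
      have h3 : s'.1.orderEmbOfFin s'.2 i ∈ (s.1)ᶜ := hs ▸ h2
      rw [hij, Finset.mem_compl] at h3
      exact h3 h1
    · simp only [hf, Sum.elim_inr] at hij
      rw [(s'.1.orderEmbOfFin s'.2).injective hij]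
  have hbij : Function.Bijective f :=
    (Fintype.bijective_iff_injective_and_card f).mpr ⟨hinj, by simpa using hn⟩
  exact ⟨Equiv.ofBijective f hbij, rfl, rfl⟩

/-- Row (K5), algebraic form: Plücker duality over an arbitrary field. -/
theorem pluckerDualityStatement : PluckerDualityStatement := by
  intro K _ l d n hn A E hA hE hEA
  obtain ⟨c, σ₀, hc, hdual⟩ := plucker_dual hn E A hEA
    (exists_minor_ne_zero_of_linearIndependent E hE)
    (exists_minor_ne_zero_of_linearIndependent A hA)
  refine ⟨c, hc, fun s s' hs => ?_⟩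
  obtain ⟨σ, hσ₁, hσ₂⟩ := exists_equiv_of_compl hn s s' hs
  have h := hdual σ
  rw [hσ₁, hσ₂] at h
  rw [minorVec_eq_plucker, minorVec_eq_plucker, h]
  rcases Int.units_eq_one_or (Equiv.Perm.sign (σ.trans σ₀.symm)) with h1 | h1
  · left
    rw [h1]
    simp
  · right
    rw [h1]
    simp

/-- Row (K5), height form: Plücker duality for heights over `ℚ`. -/
theorem pluckerDualityHeightStatement : PluckerDualityHeightStatement := by
  intro l d n hn A E hA hE hEA
  rw [logHeight_minorVec, logHeight_minorVec, logHeight, logHeight,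
    mulHeight_plucker_dual hn E A hEA (exists_minor_ne_zero_of_linearIndependent E hE)
      (exists_minor_ne_zero_of_linearIndependent A hA)]

end Fermat.Agent.H40.MW
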