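import Fermat.Agent.H92.MW.CoreInterfaces

/-!
# P-MW row (K4): the Cauchy–Binet formula for maximal minors

`minorVec (A * B) s = ∑ u, minorVec A u * det (B.submatrix u s)` for `A : l × n`, `B : n × n'`
over a commutative ring, the sum over the `l`-subsets `u` of `Fin n`.
-/

set_option autoImplicit false

namespace Fermat.Agent.H40.MW

open Matrix Fermat.Agent.H92.MW Finset

section cb

variable {K : Type*} [CommRing K] {l n : ℕ}

/-- Expansion of the determinant of a product of rectangular matrices over all column
selections. -/
theorem det_mul_rect (A : Matrix (Fin l) (Fin n) K) (C : Matrix (Fin n) (Fin l) K) :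
    (A * C).det = ∑ f : Fin l → Fin n, (A.submatrix id f).det * ∏ i, C (f i) i := by
  simp only [Matrix.det_apply', Matrix.mul_apply, Finset.prod_univ_sum, Finset.mul_sum,
    Fintype.piFinset_univ, Matrix.submatrix_apply, id]
  rw [Finset.sum_comm]
  refine Finset.sum_congr rfl fun f _ => ?_
  rw [Finset.sum_mul]
  refine Finset.sum_congr rfl fun σ _ => ?_
  rw [Finset.prod_mul_distrib]
  ring

/-- A column selection which is not injective has vanishing minor. -/
lemma det_submatrix_eq_zero_of_not_injective (A : Matrix (Fin l) (Fin n) K) (f : Fin l → Fin n)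
    (hf : ¬ Function.Injective f) : (A.submatrix id f).det = 0 := by
  obtain ⟨i, j, hij, hne⟩ : ∃ i j, f i = f j ∧ i ≠ j := by
    simpa [Function.Injective] using hf
  exact Matrix.det_zero_of_column_eq hne fun k => by simp [hij]

/-- The image of an injective column selection, as an `l`-subset. -/
def imageSubset (f : Fin l → Fin n) (hf : Function.Injective f) :
    {u : Finset (Fin n) // u.card = l} :=
  ⟨Finset.univ.image f, by rw [Finset.card_image_of_injective _ hf]; simp⟩

/-- The permutation sorting an injective column selection. -/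
noncomputable def sortPerm (f : Fin l → Fin n) (hf : Function.Injective f) :
    Equiv.Perm (Fin l) :=
  Equiv.ofBijective
    (fun i => ((imageSubset f hf).1.orderIsoOfFin (imageSubset f hf).2).symm
      ⟨f i, Finset.mem_image_of_mem f (Finset.mem_univ i)⟩)
    (Finite.injective_iff_bijective.mp fun i j hij => by
      have := ((imageSubset f hf).1.orderIsoOfFin (imageSubset f hf).2).symm.injective hij
      exact hf (Subtype.ext_iff.mp this))

lemma orderEmbOfFin_sortPerm (f : Fin l → Fin n) (hf : Function.Injective f) (i : Fin l) :
    (imageSubset f hf).1.orderEmbOfFin (imageSubset f hf).2 (sortPerm f hf i) = f i := by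
  simp only [sortPerm, Equiv.ofBijective_apply]
  rw [← Finset.coe_orderIsoOfFin_apply, OrderIso.apply_symm_apply]

lemma injective_orderEmbOfFin_comp (u : {u : Finset (Fin n) // u.card = l})
    (π : Equiv.Perm (Fin l)) : Function.Injective ((u.1.orderEmbOfFin u.2) ∘ π) :=
  (u.1.orderEmbOfFin u.2).injective.comp π.injective

lemma imageSubset_orderEmbOfFin_comp (u : {u : Finset (Fin n) // u.card = l})
    (π : Equiv.Perm (Fin l)) :
    imageSubset ((u.1.orderEmbOfFin u.2) ∘ π) (injective_orderEmbOfFin_comp u π) = u := by
  apply Subtype.ext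
  simp only [imageSubset]
  ext x
  simp only [Finset.mem_image, Finset.mem_univ, true_and, Function.comp_apply]
  constructor
  · rintro ⟨i, rfl⟩
    exact Finset.orderEmbOfFin_mem _ _ _
  · intro hx
    have : x ∈ Set.range (u.1.orderEmbOfFin u.2) := by
      rw [Finset.range_orderEmbOfFin]
      exact hx
    obtain ⟨j, rfl⟩ := this
    exact ⟨π.symm j, by simp⟩

/-- The Cauchy–Binet formula for the determinant of `A * C`, `A : l × n`, `C : n × l`. -/
theorem det_mul_eq_sum_minors (A : Matrix (Fin l) (Fin n) K) (C : Matrix (Fin n) (Fin l) K) :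
    (A * C).det = ∑ u : {u : Finset (Fin n) // u.card = l},
      minorVec A u * (C.submatrix (u.1.orderEmbOfFin u.2) id).det := by
  classical
  rw [det_mul_rect]
  -- restrict to injective selections
  have h1 : ∑ f : Fin l → Fin n, (A.submatrix id f).det * ∏ i, C (f i) i =
      ∑ f ∈ (Finset.univ.filter fun f : Fin l → Fin n => Function.Injective f),
        (A.submatrix id f).det * ∏ i, C (f i) i := by
    refine (Finset.sum_subset (Finset.filter_subset _ _) fun f _ hf => ?_).symm
    have hf' : ¬ Function.Injective f := by simpa using hf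
    rw [det_submatrix_eq_zero_of_not_injective A f hf', zero_mul]
  rw [h1]
  -- reindex by pairs (subset, permutation)
  have h2 : ∑ f ∈ (Finset.univ.filter fun f : Fin l → Fin n => Function.Injective f),
        (A.submatrix id f).det * ∏ i, C (f i) i =
      ∑ p : {u : Finset (Fin n) // u.card = l} × Equiv.Perm (Fin l),
        (A.submatrix id ((p.1.1.orderEmbOfFin p.1.2) ∘ p.2)).det *
          ∏ i, C (p.1.1.orderEmbOfFin p.1.2 (p.2 i)) i := by
    symm
    refine Finset.sum_bij (fun p _ => (p.1.1.orderEmbOfFin p.1.2) ∘ p.2) ?_ ?_ ?_ ?_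
    · intro p _
      simp only [Finset.mem_filter, Finset.mem_univ, true_and]
      exact injective_orderEmbOfFin_comp p.1 p.2
    · rintro ⟨u, π⟩ _ ⟨u', π'⟩ _ h
      have hu : u = u' := by
        rw [← imageSubset_orderEmbOfFin_comp u π, ← imageSubset_orderEmbOfFin_comp u' π']
        congr 1
      subst hu
      have hπ : π = π' := by
        ext i
        have := congrFun h i
        simp only [Function.comp_apply] at this
        exact congrArg Fin.val ((u.1.orderEmbOfFin u.2).injective this)
      rw [hπ]
    · intro f hf
      have hf' : Function.Injective f := by simpa using hf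
      refine ⟨(imageSubset f hf', sortPerm f hf'), Finset.mem_univ _, ?_⟩
      ext i
      simp [orderEmbOfFin_sortPerm]
    · intro p _
      rfl
  rw [h2, Fintype.sum_prod_type]
  refine Finset.sum_congr rfl fun u _ => ?_
  rw [Matrix.det_apply' (C.submatrix (u.1.orderEmbOfFin u.2) id), Finset.mul_sum]
  refine Finset.sum_congr rfl fun π _ => ?_
  have h3 : A.submatrix id ((u.1.orderEmbOfFin u.2) ∘ π) =
      (A.submatrix id (u.1.orderEmbOfFin u.2)).submatrix id π := by
    ext i j
    simp
  rw [h3, Matrix.det_permute', minorVec]
  simp only [Matrix.submatrix_apply, id]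
  ring

end cb

/-- Row (K4): the Cauchy–Binet formula. -/
theorem cauchyBinetStatement : CauchyBinetStatement := by
  intro K _ l n n' A B s
  have h : (A * B).submatrix id (s.1.orderEmbOfFin s.2) =
      A * B.submatrix id (s.1.orderEmbOfFin s.2) := by
    ext i j
    simp [Matrix.mul_apply]
  rw [minorVec, h, det_mul_eq_sum_minors]
  refine Finset.sum_congr rfl fun u _ => ?_
  congr 1

end Fermat.Agent.H40.MW
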