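import Fermat.Agent.H40.MW.Schmidt

/-!
# P-MW: duality for Plücker coordinates (complementary minors)

Let `A` be a `d × M` matrix and `B` an `ℓ × M` matrix over a field with `ℓ + d = M`, both of full
rank, with `A * Bᵀ = 0` (the rows of `B` form a basis of the kernel of `A`).  Then the Plücker
coordinates of `B` are, up to a common nonzero factor and signs, the complementary Plücker
coordinates of `A`: `plucker B (σ ∘ inl) = ± c * plucker A (σ ∘ inr)` for every bijection
`σ : Fin ℓ ⊕ Fin d ≃ Fin M`.  Consequently both Plücker vectors have the same height.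
-/

set_option autoImplicit false

namespace Fermat.Agent.H40.MW

open Matrix Height

section extend

/-- An injective map from `α` extends to a bijection from `α ⊕ β` when the cardinalities fit. -/
theorem exists_equiv_sum_extending_inl {α β γ : Type*} [Fintype α] [Fintype β] [Fintype γ]
    (f : α → γ) (hf : Function.Injective f)
    (hcard : Fintype.card α + Fintype.card β = Fintype.card γ) :
    ∃ σ : α ⊕ β ≃ γ, ∀ a, σ (Sum.inl a) = f a := by
  classical
  have h1 : Fintype.card (Set.range f) = Fintype.card α :=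
    (Fintype.card_congr (Equiv.ofInjective f hf)).symm
  have h2 : Fintype.card ((Set.range f)ᶜ : Set γ) = Fintype.card β := by
    have := Fintype.card_compl_set (Set.range f)
    omega
  let e₁ : α ≃ Set.range f := Equiv.ofInjective f hf
  let e₂ : β ≃ ((Set.range f)ᶜ : Set γ) := (Fintype.equivOfCardEq h2).symm
  refine ⟨(Equiv.sumCongr e₁ e₂).trans (Equiv.Set.sumCompl (Set.range f)), fun a => ?_⟩
  simp [e₁]

/-- An injective map from `β` extends to a bijection from `α ⊕ β` when the cardinalities fit. -/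
theorem exists_equiv_sum_extending_inr {α β γ : Type*} [Fintype α] [Fintype β] [Fintype γ]
    (f : β → γ) (hf : Function.Injective f)
    (hcard : Fintype.card α + Fintype.card β = Fintype.card γ) :
    ∃ σ : α ⊕ β ≃ γ, ∀ b, σ (Sum.inr b) = f b := by
  obtain ⟨σ, hσ⟩ := exists_equiv_sum_extending_inl (β := α) f hf (by omega)
  exact ⟨(Equiv.sumComm α β).trans σ, fun b => by simp [hσ]⟩

end extend

section jacobi

variable {K : Type*} [Field K] {m n : Type*} [Fintype m] [Fintype n] [DecidableEq m]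
  [DecidableEq n]

/-- Jacobi's complementary minor identity in block form: if `G * H = 1` then
`det G * det H₁₁ = det G₂₂`. -/
theorem det_mul_det_toBlocks₁₁ (G H : Matrix (m ⊕ n) (m ⊕ n) K) (h : G * H = 1) :
    G.det * H.toBlocks₁₁.det = G.toBlocks₂₂.det := by
  have hT : G * fromBlocks H.toBlocks₁₁ 0 H.toBlocks₂₁ 1 =
      fromBlocks 1 G.toBlocks₁₂ 0 G.toBlocks₂₂ := by
    have hG : G = fromBlocks G.toBlocks₁₁ G.toBlocks₁₂ G.toBlocks₂₁ G.toBlocks₂₂ :=
      (fromBlocks_toBlocks G).symm
    have hH : H = fromBlocks H.toBlocks₁₁ H.toBlocks₁₂ H.toBlocks₂₁ H.toBlocks₂₂ :=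
      (fromBlocks_toBlocks H).symm
    have h1 := h
    rw [hG, hH, fromBlocks_multiply, ← fromBlocks_one, fromBlocks_inj] at h1
    obtain ⟨h11, -, h21, -⟩ := h1
    conv_lhs => rw [hG]
    rw [fromBlocks_multiply]
    simp only [Matrix.mul_zero, Matrix.mul_one, zero_add]
    rw [h11, h21]
  have := congrArg Matrix.det hT
  rw [Matrix.det_mul, det_fromBlocks_zero₁₂, det_fromBlocks_zero₂₁] at this
  simpa using this

end jacobi

section dual

variable {K : Type*} [Field K] {ℓ d M : ℕ}

/-- A column selection with nonzero minor is injective. -/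
lemma injective_of_plucker_ne_zero (A : Matrix (Fin d) (Fin M) K) (e : Fin d → Fin M)
    (h : plucker A e ≠ 0) : Function.Injective e := by
  intro i j hij
  by_contra hne
  apply h
  exact Matrix.det_zero_of_column_eq hne fun k => by simp [hij]

/-- The auxiliary square matrix: coordinate rows on the `inl` part, the rows of `A` on the `inr`
part, columns indexed through `σ₀`. -/
def dualAux (A : Matrix (Fin d) (Fin M) K) (σ₀ : Fin ℓ ⊕ Fin d ≃ Fin M) :
    Matrix (Fin ℓ ⊕ Fin d) (Fin ℓ ⊕ Fin d) K :=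
  fromBlocks 1 0 (A.submatrix id (σ₀ ∘ Sum.inl)) (A.submatrix id (σ₀ ∘ Sum.inr))

lemma det_dualAux (A : Matrix (Fin d) (Fin M) K) (σ₀ : Fin ℓ ⊕ Fin d ≃ Fin M) :
    (dualAux A σ₀).det = plucker A (σ₀ ∘ Sum.inr) := by
  simp [dualAux, det_fromBlocks_zero₁₂, plucker]

/-- A vector in the kernel of `A` is determined by its coordinates in `σ₀ ∘ inl`, through the
first block column of the inverse of `dualAux A σ₀`. -/
lemma eq_sum_of_mulVec_eq_zero (A : Matrix (Fin d) (Fin M) K) (σ₀ : Fin ℓ ⊕ Fin d ≃ Fin M)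
    (h₀ : plucker A (σ₀ ∘ Sum.inr) ≠ 0) (y : Fin M → K) (hy : A *ᵥ y = 0) (t : Fin M) :
    y t = ∑ j, y (σ₀ (Sum.inl j)) * (dualAux A σ₀)⁻¹ (σ₀.symm t) (Sum.inl j) := by
  classical
  set G₀ := dualAux A σ₀ with hG₀
  have hdet : IsUnit G₀.det := by
    rw [det_dualAux]
    exact isUnit_iff_ne_zero.mpr h₀
  have hGy : G₀ *ᵥ (y ∘ σ₀) = Sum.elim (fun j => y (σ₀ (Sum.inl j))) 0 := by
    ext k
    rcases k with i | i
    · simp [hG₀, dualAux, Matrix.mulVec, dotProduct, Fintype.sum_sum_type, Matrix.one_apply]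
    · have h1 := congrFun hy i
      simp only [Matrix.mulVec, dotProduct, Pi.zero_apply] at h1
      rw [← Equiv.sum_comp σ₀] at h1
      simpa [hG₀, dualAux, Matrix.mulVec, dotProduct, Fintype.sum_sum_type] using h1
  have h2 : y ∘ σ₀ = G₀⁻¹ *ᵥ (G₀ *ᵥ (y ∘ σ₀)) := by
    rw [Matrix.mulVec_mulVec, Matrix.nonsing_inv_mul _ hdet, Matrix.one_mulVec]
  have h3 := congrFun h2 (σ₀.symm t)
  rw [hGy] at h3
  simp only [Function.comp_apply, Equiv.apply_symm_apply] at h3
  rw [h3]
  simp [Matrix.mulVec, dotProduct, Fintype.sum_sum_type, mul_comm]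

/-- **Duality of Plücker coordinates.**  If `A` (`d × M`) and `B` (`ℓ × M`) have full rank,
`ℓ + d = M` and `A * Bᵀ = 0`, then the Plücker coordinates of `B` are, up to a common nonzero
factor and signs, the complementary Plücker coordinates of `A`. -/
theorem plucker_dual (hdim : ℓ + d = M) (A : Matrix (Fin d) (Fin M) K)
    (B : Matrix (Fin ℓ) (Fin M) K) (hAB : A * Bᵀ = 0)
    (hA : ∃ e, plucker A e ≠ 0) (hB : ∃ e, plucker B e ≠ 0) :
    ∃ (c : K) (σ₀ : Fin ℓ ⊕ Fin d ≃ Fin M), c ≠ 0 ∧
      ∀ σ : Fin ℓ ⊕ Fin d ≃ Fin M, plucker B (σ ∘ Sum.inl) =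
        ((Equiv.Perm.sign (σ.trans σ₀.symm) : ℤ) : K) * c * plucker A (σ ∘ Sum.inr) := by
  classical
  obtain ⟨e₀, he₀⟩ := hA
  obtain ⟨σ₀, hσ₀⟩ := exists_equiv_sum_extending_inr (α := Fin ℓ) e₀
    (injective_of_plucker_ne_zero A e₀ he₀) (by simpa using hdim)
  have hσ₀' : σ₀ ∘ Sum.inr = e₀ := funext hσ₀
  have h₀ : plucker A (σ₀ ∘ Sum.inr) ≠ 0 := by rwa [hσ₀']
  set G₀ := dualAux A σ₀ with hG₀
  have hdet : IsUnit G₀.det := by
    rw [det_dualAux]
    exact isUnit_iff_ne_zero.mpr h₀
  -- `X` = first block column of the inverse, rows indexed by `Fin M`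
  set X : Matrix (Fin ℓ) (Fin M) K := Matrix.of fun j t => G₀⁻¹ (σ₀.symm t) (Sum.inl j) with hX
  -- `B = g * X`
  have hBX : B = B.submatrix id (σ₀ ∘ Sum.inl) * X := by
    ext i t
    have hy : A *ᵥ (B i) = 0 := by
      ext k
      have := congrFun (congrFun hAB k) i
      simpa [Matrix.mul_apply, Matrix.mulVec, dotProduct] using this
    rw [eq_sum_of_mulVec_eq_zero A σ₀ h₀ (B i) hy t]
    simp [Matrix.mul_apply, hX, hG₀]
  have hg : (B.submatrix id (σ₀ ∘ Sum.inl)).det ≠ 0 := by
    intro h0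
    obtain ⟨e, he⟩ := hB
    apply he
    rw [hBX, plucker_mul, h0, zero_smul]
    rfl
  -- Jacobi for every `σ`
  have hJ : ∀ σ : Fin ℓ ⊕ Fin d ≃ Fin M,
      ((Equiv.Perm.sign (σ.trans σ₀.symm) : ℤ) : K) * G₀.det * plucker X (σ ∘ Sum.inl) =
        plucker A (σ ∘ Sum.inr) := by
    intro σ
    set π : Equiv.Perm (Fin ℓ ⊕ Fin d) := σ.trans σ₀.symm with hπ
    have hmul : G₀.submatrix id π * G₀⁻¹.submatrix π id = 1 := by
      rw [Matrix.submatrix_mul_equiv, Matrix.mul_nonsing_inv _ hdet]
      simp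
    have h1 := det_mul_det_toBlocks₁₁ _ _ hmul
    rw [Matrix.det_permute'] at h1
    have h2 : (G₀⁻¹.submatrix π id).toBlocks₁₁ = (X.submatrix id (σ ∘ Sum.inl))ᵀ := by
      ext i j
      simp [Matrix.toBlocks₁₁, hX, hπ]
    have h3 : (G₀.submatrix id π).toBlocks₂₂ = A.submatrix id (σ ∘ Sum.inr) := by
      ext i j
      simp [Matrix.toBlocks₂₂, hG₀, dualAux, hπ]
      rcases h : σ₀.symm (σ (Sum.inr j)) with k | k
      · have : σ (Sum.inr j) = σ₀ (Sum.inl k) := by rw [← h, Equiv.apply_symm_apply]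
        simp [this]
      · have : σ (Sum.inr j) = σ₀ (Sum.inr k) := by rw [← h, Equiv.apply_symm_apply]
        simp [this]
    rw [h2, h3, Matrix.det_transpose] at h1
    simpa [plucker] using h1
  refine ⟨(B.submatrix id (σ₀ ∘ Sum.inl)).det / G₀.det, σ₀,
    div_ne_zero hg hdet.ne_zero, fun σ => ?_⟩
  have hs : ((Equiv.Perm.sign (σ.trans σ₀.symm) : ℤ) : K) *
      ((Equiv.Perm.sign (σ.trans σ₀.symm) : ℤ) : K) = 1 := by
    rcases Int.units_eq_one_or (Equiv.Perm.sign (σ.trans σ₀.symm)) with h | h <;> simp [h]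
  have hB' : plucker B (σ ∘ Sum.inl) =
      (B.submatrix id (σ₀ ∘ Sum.inl)).det * plucker X (σ ∘ Sum.inl) := by
    conv_lhs => rw [hBX, plucker_mul]
    rfl
  rw [hB', ← hJ σ]
  field_simp [hdet.ne_zero]
  rw [pow_two, hs, mul_one]

end dual

section compare

open AdmissibleAbsValues

variable {K : Type*} [Field K] [AdmissibleAbsValues K] {ι ι' : Type*} [Finite ι] [Finite ι']

/-- Monotonicity of the height with respect to the local suprema. -/
theorem mulHeight_le_of_forall_iSup_le {x : ι → K} {y : ι' → K} (hx : x ≠ 0) (hy : y ≠ 0)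
    (H : ∀ v : AbsoluteValue K ℝ, ⨆ i, v (x i) ≤ ⨆ j, v (y j)) : mulHeight x ≤ mulHeight y := by
  rw [mulHeight_eq hx, mulHeight_eq hy]
  gcongr
  · exact finprod_nonneg fun v ↦ Real.iSup_nonneg_of_nonnegHomClass v.val _
  · exact Multiset.prod_map_nonneg fun v _ ↦ Real.iSup_nonneg_of_nonnegHomClass v _
  · exact Multiset.prod_map_le_prod_map₀ _ _ (fun v _ ↦ Real.iSup_nonneg_of_nonnegHomClass v _)
      fun v _ ↦ H v
  · exact finprod_le_finprod (by fun_prop (disch := assumption))
      (fun v ↦ Real.iSup_nonneg_of_nonnegHomClass v.val _)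
      (by fun_prop (disch := assumption)) fun v ↦ H v.val

/-- Two vectors whose local suprema agree up to a common nonzero scalar have the same height. -/
theorem mulHeight_eq_of_forall_iSup_eq_mul {x : ι → K} {y : ι' → K} (hx : x ≠ 0) (hy : y ≠ 0)
    {c : K} (hc : c ≠ 0)
    (H : ∀ v : AbsoluteValue K ℝ, ⨆ i, v (x i) = v c * ⨆ j, v (y j)) :
    mulHeight x = mulHeight y := by
  have hcy : c • y ≠ 0 := by
    intro h0
    apply hy
    ext j
    have := congrFun h0 j
    simpa [hc] using this
  have H' : ∀ v : AbsoluteValue K ℝ, ⨆ i, v (x i) = ⨆ j, v ((c • y) j) := by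
    intro v
    rw [H v, Real.mul_iSup_of_nonneg (v.nonneg c)]
    simp
  rw [← mulHeight_smul_eq_mulHeight y hc]
  exact le_antisymm (mulHeight_le_of_forall_iSup_le hx hcy fun v => (H' v).le)
    (mulHeight_le_of_forall_iSup_le hcy hx fun v => (H' v).ge)

end compare

section dualHeight

variable {K : Type*} [Field K] {ℓ d M : ℕ}

/-- Local form of the duality: for every absolute value the suprema of the Plücker coordinates
of `B` and of `A` agree up to the factor `v c`. -/
theorem iSup_plucker_dual (hdim : ℓ + d = M) (A : Matrix (Fin d) (Fin M) K)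
    (B : Matrix (Fin ℓ) (Fin M) K) (hAB : A * Bᵀ = 0)
    (hA : ∃ e, plucker A e ≠ 0) (hB : ∃ e, plucker B e ≠ 0) :
    ∃ c : K, c ≠ 0 ∧ ∀ v : AbsoluteValue K ℝ,
      ⨆ e, v (plucker B e) = v c * ⨆ e, v (plucker A e) := by
  classical
  obtain ⟨c, σ₀, hc, hdual⟩ := plucker_dual hdim A B hAB hA hB
  refine ⟨c, hc, fun v => ?_⟩
  have hsign : ∀ u : ℤˣ, v (((u : ℤ) : K)) = 1 := by
    intro u
    rcases Int.units_eq_one_or u with h | h <;> simp [h]
  have hval : ∀ σ : Fin ℓ ⊕ Fin d ≃ Fin M,
      v (plucker B (σ ∘ Sum.inl)) = v c * v (plucker A (σ ∘ Sum.inr)) := by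
    intro σ
    rw [hdual σ, map_mul, map_mul, hsign, one_mul]
  have : Nonempty (Fin ℓ → Fin M) := ⟨hB.choose⟩
  have : Nonempty (Fin d → Fin M) := ⟨hA.choose⟩
  have hcard : Fintype.card (Fin ℓ) + Fintype.card (Fin d) = Fintype.card (Fin M) := by
    simpa using hdim
  rw [Real.mul_iSup_of_nonneg (v.nonneg c)]
  apply le_antisymm
  · refine ciSup_le fun e => ?_
    by_cases he : plucker B e = 0
    · rw [he, map_zero]
      exact Real.iSup_nonneg fun e' => mul_nonneg (v.nonneg _) (v.nonneg _)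
    · obtain ⟨σ, hσ⟩ := exists_equiv_sum_extending_inl (β := Fin d) e
        (injective_of_plucker_ne_zero B e he) hcard
      have hσ' : σ ∘ Sum.inl = e := funext hσ
      rw [← hσ', hval σ]
      exact Finite.le_ciSup (fun e' => v c * v (plucker A e')) (σ ∘ Sum.inr)
  · refine ciSup_le fun e' => ?_
    by_cases he : plucker A e' = 0
    · rw [he, map_zero, mul_zero]
      exact Real.iSup_nonneg fun e => v.nonneg _
    · obtain ⟨σ, hσ⟩ := exists_equiv_sum_extending_inr (α := Fin ℓ) e'
        (injective_of_plucker_ne_zero A e' he) hcard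
      have hσ' : σ ∘ Sum.inr = e' := funext hσ
      rw [← hσ', ← hval σ]
      exact Finite.le_ciSup (fun e => v (plucker B e)) (σ ∘ Sum.inl)

variable [AdmissibleAbsValues K]

/-- **Duality for heights of Plücker vectors**: a full-rank matrix `A` and a matrix `B` whose
rows form a basis of the kernel of `A` have Plücker vectors of the same height. -/
theorem mulHeight_plucker_dual (hdim : ℓ + d = M) (A : Matrix (Fin d) (Fin M) K)
    (B : Matrix (Fin ℓ) (Fin M) K) (hAB : A * Bᵀ = 0)
    (hA : ∃ e, plucker A e ≠ 0) (hB : ∃ e, plucker B e ≠ 0) :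
    mulHeight (plucker B) = mulHeight (plucker A) := by
  obtain ⟨c, hc, h⟩ := iSup_plucker_dual hdim A B hAB hA hB
  have hA' : plucker A ≠ 0 := fun h0 => hA.choose_spec (congrFun h0 _)
  have hB' : plucker B ≠ 0 := fun h0 => hB.choose_spec (congrFun h0 _)
  exact mulHeight_eq_of_forall_iSup_eq_mul hB' hA' hc h

omit [AdmissibleAbsValues K] in
/-- Rank-nullity for a matrix with linearly independent rows. -/
lemma finrank_ker_add (A : Matrix (Fin d) (Fin M) K) (hA : LinearIndependent K A.row) :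
    Module.finrank K (LinearMap.ker (Matrix.mulVecLin A)) + d = M := by
  have h1 := LinearMap.finrank_range_add_finrank_ker (Matrix.mulVecLin A)
  have h2 : Module.finrank K (LinearMap.range (Matrix.mulVecLin A)) = d := by
    have := hA.rank_matrix
    simpa [Matrix.rank] using this
  rw [h2, Module.finrank_fin_fun] at h1
  omega

/-- The Schmidt height of the kernel of a matrix with linearly independent rows is the height of
the Plücker vector of the matrix. -/
theorem schmidtMulHeight_ker (A : Matrix (Fin d) (Fin M) K) (hA : LinearIndependent K A.row) :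
    schmidtMulHeight (LinearMap.ker (Matrix.mulVecLin A)) = mulHeight (plucker A) := by
  refine mulHeight_plucker_dual (finrank_ker_add A hA) A
    (basisMatrix (LinearMap.ker (Matrix.mulVecLin A))) ?_
    (exists_minor_ne_zero_of_linearIndependent A hA)
    (exists_minor_ne_zero_of_linearIndependent _ (linearIndependent_basisMatrix _))
  ext k i
  have hmem : ((Module.finBasis K (LinearMap.ker (Matrix.mulVecLin A)) i :
      LinearMap.ker (Matrix.mulVecLin A)) : Fin M → K) ∈ LinearMap.ker (Matrix.mulVecLin A) :=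
    Submodule.coe_mem _
  have h1 := LinearMap.mem_ker.mp hmem
  rw [Matrix.mulVecLin_apply] at h1
  have := congrFun h1 k
  simpa [Matrix.mul_apply, Matrix.mulVec, dotProduct, basisMatrix] using this

theorem schmidtLogHeight_ker (A : Matrix (Fin d) (Fin M) K) (hA : LinearIndependent K A.row) :
    schmidtLogHeight (LinearMap.ker (Matrix.mulVecLin A)) = logHeight (plucker A) := by
  rw [schmidtLogHeight, schmidtMulHeight_ker A hA, logHeight]

end dualHeight

section bombieriVaaler

variable {d M : ℕ}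

/-- **Siegel's lemma for systems of linear equations** (Bombieri–Vaaler form with the sharp
exponent): a system `A x = 0` of `d` independent equations in `M > d` unknowns over `ℚ` has a
nonzero solution with `H(x) ^ (M - d) ≤ (M - d) ^ (M - d) * H(A)`, where `H(A)` is the height of
the vector of maximal minors of `A`. -/
theorem exists_small_solution (A : Matrix (Fin d) (Fin M) ℚ) (hA : LinearIndependent ℚ A.row)
    (hd : d < M) :
    ∃ x : Fin M → ℚ, x ≠ 0 ∧ A *ᵥ x = 0 ∧
      mulHeight x ^ (M - d) ≤ ((M - d : ℕ) : ℝ) ^ (M - d) * mulHeight (plucker A) := by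
  have hrank : Module.finrank ℚ (LinearMap.ker (Matrix.mulVecLin A)) = M - d := by
    have := finrank_ker_add A hA
    omega
  have hbot : LinearMap.ker (Matrix.mulVecLin A) ≠ ⊥ := by
    intro h0
    have h1 : Module.finrank ℚ (LinearMap.ker (Matrix.mulVecLin A)) = 0 := by
      rw [h0, finrank_bot]
    omega
  obtain ⟨x, hxV, hx, hH⟩ := exists_small_mem _ hbot
  refine ⟨x, hx, ?_, ?_⟩
  · simpa using hxV
  · rw [hrank, schmidtMulHeight_ker A hA] at hH
    exact hH

end bombieriVaaler

end Fermat.Agent.H40.MW
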