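import Mathlib

/-!
# P-MW: maximal minors, linear independence and saturation

* `exists_minor_ne_zero_of_linearIndependent`: over a field, a matrix with linearly independent
  rows has a nonzero maximal minor.
* `exists_unit_combination_of_prime_dvd_minors`: if a prime `q` divides all maximal minors of an
  integer matrix `B`, some integer combination of the rows with one coefficient equal to `1` is
  divisible by `q`.
* `exists_saturated`: an integer matrix with a nonzero maximal minor can be replaced by an
  integer matrix with the same rational row space whose maximal minors have no common prime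
  factor; all maximal minors are multiplied by the same nonzero integer.
-/

set_option autoImplicit false

namespace Fermat.Agent.H40.MW

open Matrix

/-- The columns of a submatrix obtained by selecting columns. -/
lemma col_submatrix_id {F : Type*} {ℓ M : ℕ} (B : Matrix (Fin ℓ) (Fin M) F)
    (e : Fin ℓ → Fin M) :
    (B.submatrix id e).col = B.col ∘ e := by
  ext j i
  rfl

section field

variable {F : Type*} [Field F] {ℓ M : ℕ}

/-- Over a field, a matrix with linearly independent rows has a nonzero maximal minor. -/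
theorem exists_minor_ne_zero_of_linearIndependent (B : Matrix (Fin ℓ) (Fin M) F)
    (h : LinearIndependent F B.row) :
    ∃ e : Fin ℓ → Fin M, (B.submatrix id e).det ≠ 0 := by
  classical
  have hrank : B.rank = ℓ := by simpa using h.rank_matrix
  obtain ⟨κ, a, ha, hspan, hli⟩ := exists_linearIndependent' (K := F) B.col
  have : Finite κ := Finite.of_injective a ha
  let _ : Fintype κ := Fintype.ofFinite κ
  have hcard : Fintype.card κ = ℓ := by
    have h1 := linearIndependent_iff_card_eq_finrank_span.mp hli
    rw [h1, Set.finrank, hspan, ← Matrix.rank_eq_finrank_span_cols, hrank]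
  let f : Fin ℓ ≃ κ := (Fintype.equivFinOfCardEq hcard).symm
  refine ⟨a ∘ f, ?_⟩
  have hli' : LinearIndependent F (B.submatrix id (a ∘ f)).col := by
    rw [col_submatrix_id]
    exact hli.comp f f.injective
  have hu := Matrix.linearIndependent_cols_iff_isUnit.mp hli'
  exact ((Matrix.isUnit_iff_isUnit_det _).mp hu).ne_zero

end field

section modq

variable {ℓ M : ℕ}

/-- If a prime `q` divides all maximal minors of an integer matrix, then some integer combination
of its rows, with one coefficient equal to `1`, is divisible by `q`. -/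
theorem exists_unit_combination_of_prime_dvd_minors (B : Matrix (Fin ℓ) (Fin M) ℤ) {q : ℕ}
    (hq : q.Prime) (h : ∀ e : Fin ℓ → Fin M, (q : ℤ) ∣ (B.submatrix id e).det) :
    ∃ (i₀ : Fin ℓ) (c : Fin ℓ → ℤ), c i₀ = 1 ∧ ∀ t, (q : ℤ) ∣ (c ᵥ* B) t := by
  classical
  have : Fact q.Prime := ⟨hq⟩
  set Bq : Matrix (Fin ℓ) (Fin M) (ZMod q) := B.map (Int.castRingHom (ZMod q)) with hBq
  have hminor : ∀ e : Fin ℓ → Fin M, (Bq.submatrix id e).det = 0 := by
    intro e
    have h1 : Bq.submatrix id e = (B.submatrix id e).map (Int.castRingHom (ZMod q)) := by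
      ext i j
      simp [hBq]
    have h2 := RingHom.map_det (Int.castRingHom (ZMod q)) (B.submatrix id e)
    rw [RingHom.mapMatrix_apply] at h2
    rw [h1, ← h2]
    exact (ZMod.intCast_zmod_eq_zero_iff_dvd _ q).mpr (h e)
  have hdep : ¬ LinearIndependent (ZMod q) Bq.row := by
    intro hli
    obtain ⟨e, he⟩ := exists_minor_ne_zero_of_linearIndependent Bq hli
    exact he (hminor e)
  obtain ⟨g, hg, i₀, hi₀⟩ := Fintype.not_linearIndependent_iff.mp hdep
  -- normalise the coefficient at `i₀` to `1` and lift to the integers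
  refine ⟨i₀, Function.update (fun i => (((g i₀)⁻¹ * g i).val : ℤ)) i₀ 1, by simp, ?_⟩
  intro t
  rw [← ZMod.intCast_zmod_eq_zero_iff_dvd]
  have hcast : ∀ i, ((Function.update (fun i => (((g i₀)⁻¹ * g i).val : ℤ)) i₀ 1 i : ℤ) :
      ZMod q) = (g i₀)⁻¹ * g i := by
    intro i
    by_cases hi : i = i₀
    · subst hi
      simp [inv_mul_cancel₀ hi₀]
    · simp [Function.update_of_ne hi]
  have hg' : ∑ i, g i * Bq i t = 0 := by
    have := congrFun hg t
    simpa [Matrix.row, Finset.sum_apply] using this
  simp only [Matrix.vecMul, dotProduct, Int.cast_sum, Int.cast_mul, hcast]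
  have : ∑ i, (g i₀)⁻¹ * g i * ((B i t : ℤ) : ZMod q) = (g i₀)⁻¹ * ∑ i, g i * Bq i t := by
    rw [Finset.mul_sum]
    refine Finset.sum_congr rfl fun i _ => ?_
    simp [hBq, mul_assoc]
  rw [this, hg', mul_zero]

end modq

section saturation

variable {ℓ M : ℕ}

/-- One saturation step: if a prime `q` divides all maximal minors of `B`, there is an integer
matrix `B'` with the same rational row space all of whose maximal minors are those of `B`
divided by `q`. -/
theorem exists_div_step (B : Matrix (Fin ℓ) (Fin M) ℤ) {q : ℕ} (hq : q.Prime)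
    (h : ∀ e : Fin ℓ → Fin M, (q : ℤ) ∣ (B.submatrix id e).det) :
    ∃ (B' : Matrix (Fin ℓ) (Fin M) ℤ) (D : Matrix (Fin ℓ) (Fin ℓ) ℚ),
      (∀ e : Fin ℓ → Fin M, (B.submatrix id e).det = q * (B'.submatrix id e).det) ∧
      B'.map (Int.cast : ℤ → ℚ) = D * B.map (Int.cast : ℤ → ℚ) := by
  classical
  obtain ⟨i₀, c, hc, hdvd⟩ := exists_unit_combination_of_prime_dvd_minors B hq h
  have hq0 : (q : ℤ) ≠ 0 := by exact_mod_cast hq.ne_zero
  have hqQ : (q : ℚ) ≠ 0 := by exact_mod_cast hq.ne_zero
  choose r hr using hdvd
  -- `hr t : (c ᵥ* B) t = q * r t`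
  refine ⟨B.updateRow i₀ r, (1 : Matrix (Fin ℓ) (Fin ℓ) ℚ).updateRow i₀
      (fun k => (c k : ℚ) / q), ?_, ?_⟩
  · intro e
    have h1 : (B.updateRow i₀ r).submatrix id e =
        (B.submatrix id e).updateRow i₀ (fun s => r (e s)) := by
      ext i j
      by_cases hi : i = i₀
      · subst hi
        simp
      · simp [Matrix.updateRow_ne hi]
    have h2 : ((q : ℤ) • fun s => r (e s)) = ∑ k, c k • (B.submatrix id e) k := by
      ext s
      have := hr (e s)
      simp only [Pi.smul_apply, smul_eq_mul, Finset.sum_apply, Matrix.submatrix_apply, id]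
      rw [← this]
      simp [Matrix.vecMul, dotProduct]
    have h3 := Matrix.det_updateRow_smul (B.submatrix id e) i₀ (q : ℤ) (fun s => r (e s))
    rw [h2, Matrix.det_updateRow_sum, hc, one_smul] at h3
    rw [h1, h3]
  · ext i t
    by_cases hi : i = i₀
    · subst hi
      have := hr t
      simp only [Matrix.map_apply, Matrix.updateRow_self, Matrix.mul_apply]
      have h4 : ((r t : ℤ) : ℚ) = ((c ᵥ* B) t : ℤ) / q := by
        rw [this]
        push_cast
        field_simp
      rw [h4]
      simp only [Matrix.vecMul, dotProduct, Int.cast_sum, Int.cast_mul, Finset.sum_div]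
      refine Finset.sum_congr rfl fun k _ => ?_
      ring
    · simp [Matrix.mul_apply, Matrix.one_apply, hi]

/-- Saturation: an integer matrix with a nonzero maximal minor can be replaced by an integer
matrix with the same rational row space whose maximal minors have greatest common divisor `1`;
all the maximal minors are divided by the same nonzero integer. -/
theorem exists_saturated (B : Matrix (Fin ℓ) (Fin M) ℤ)
    (h : ∃ e : Fin ℓ → Fin M, (B.submatrix id e).det ≠ 0) :
    ∃ (B' : Matrix (Fin ℓ) (Fin M) ℤ) (k : ℤ) (D : Matrix (Fin ℓ) (Fin ℓ) ℚ), k ≠ 0 ∧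
      (∀ e : Fin ℓ → Fin M, (B.submatrix id e).det = k * (B'.submatrix id e).det) ∧
      B'.map (Int.cast : ℤ → ℚ) = D * B.map (Int.cast : ℤ → ℚ) ∧
      Finset.univ.gcd (fun e : Fin ℓ → Fin M => (B'.submatrix id e).det) = 1 := by
  classical
  obtain ⟨e₀, he₀⟩ := h
  induction hn : (B.submatrix id e₀).det.natAbs using Nat.strong_induction_on generalizing B with
  | _ n ih =>
    by_cases hg : Finset.univ.gcd (fun e : Fin ℓ → Fin M => (B.submatrix id e).det) = 1
    · exact ⟨B, 1, 1, one_ne_zero, fun e => by simp, by simp, hg⟩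
    · -- a prime divides the gcd
      set g := Finset.univ.gcd (fun e : Fin ℓ → Fin M => (B.submatrix id e).det) with hgdef
      have hg0 : g ≠ 0 := by
        intro h0
        exact he₀ (Finset.gcd_eq_zero_iff.mp h0 e₀ (Finset.mem_univ _))
      have hgabs : g.natAbs ≠ 1 := by
        intro h1
        apply hg
        have hnn : 0 ≤ g := by
          rw [hgdef, ← Finset.normalize_gcd]
          exact Int.nonneg_of_normalize_eq_self (normalize_idem _)
        have := Int.natAbs_of_nonneg hnn
        omega
      obtain ⟨q, hq, hqg⟩ := Nat.exists_prime_and_dvd hgabs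
      have hqdvd : ∀ e : Fin ℓ → Fin M, (q : ℤ) ∣ (B.submatrix id e).det := by
        intro e
        have h1 : (q : ℤ) ∣ g := Int.natCast_dvd.mpr hqg
        exact h1.trans (Finset.gcd_dvd (Finset.mem_univ e))
      obtain ⟨B₁, D₁, hB₁, hD₁⟩ := exists_div_step B hq hqdvd
      have hq0 : (q : ℤ) ≠ 0 := by exact_mod_cast hq.ne_zero
      have he₁ : (B₁.submatrix id e₀).det ≠ 0 := by
        intro h0
        apply he₀
        rw [hB₁ e₀, h0, mul_zero]
      have hlt : (B₁.submatrix id e₀).det.natAbs < n := by
        rw [← hn, hB₁ e₀, Int.natAbs_mul, Int.natAbs_natCast]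
        have hpos : 0 < (B₁.submatrix id e₀).det.natAbs := Int.natAbs_pos.mpr he₁
        have h2 := hq.two_le
        nlinarith
      obtain ⟨B', k, D, hk, hB', hD, hgcd⟩ := ih _ hlt B₁ he₁ rfl
      refine ⟨B', q * k, D * D₁, mul_ne_zero hq0 hk, ?_, ?_, hgcd⟩
      · intro e
        rw [hB₁ e, hB' e, mul_assoc]
      · rw [hD, hD₁, Matrix.mul_assoc]

end saturation

end Fermat.Agent.H40.MW
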