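import Fermat.Agent.H40.MW.Siegel

/-!
# P-MW: the Schmidt (Plücker) height of a subspace

* `plucker B` : the vector of all maximal minors of an `ℓ × M` matrix, indexed by all maps
  `Fin ℓ → Fin M`.
* `mulHeight_plucker_eq_of_span_eq` : two matrices with linearly independent rows and the same
  row space have Plücker vectors of the same height.
* `schmidtMulHeight V`, `schmidtLogHeight V` : the Schmidt height of a subspace `V ⊆ K^M`.
* `exists_small_mem` : Siegel's lemma: a nonzero subspace `V ⊆ ℚ^M` of dimension `ℓ` contains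
  `x ≠ 0` with `H(x) ^ ℓ ≤ ℓ ^ ℓ * H(V)`.
-/

set_option autoImplicit false

namespace Fermat.Agent.H40.MW

open Matrix Height

section plucker

variable {K : Type*} [Field K] {ℓ ℓ' M : ℕ}

/-- The Plücker vector of an `ℓ × M` matrix: all its `ℓ × ℓ` minors. -/
def plucker (B : Matrix (Fin ℓ) (Fin M) K) : (Fin ℓ → Fin M) → K :=
  fun e => (B.submatrix id e).det

lemma plucker_apply (B : Matrix (Fin ℓ) (Fin M) K) (e : Fin ℓ → Fin M) :
    plucker B e = (B.submatrix id e).det := rfl

/-- The Plücker vector of a product `g * B`. -/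
lemma plucker_mul (g : Matrix (Fin ℓ) (Fin ℓ) K) (B : Matrix (Fin ℓ) (Fin M) K) :
    plucker (g * B) = g.det • plucker B := by
  ext e
  have : (g * B).submatrix id e = g * B.submatrix id e := by
    ext i j
    simp [Matrix.mul_apply]
  simp [plucker, this, Matrix.det_mul]

/-- The Plücker vector of a matrix with linearly independent rows is nonzero. -/
lemma plucker_ne_zero (B : Matrix (Fin ℓ) (Fin M) K) (h : LinearIndependent K B.row) :
    plucker B ≠ 0 := by
  obtain ⟨e, he⟩ := exists_minor_ne_zero_of_linearIndependent B h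
  intro h0
  exact he (congrFun h0 e)

/-- If the rows of `B'` lie in the row space of `B`, then `B' = g * B` for some square `g`. -/
lemma exists_mul_eq_of_row_mem_span (B : Matrix (Fin ℓ) (Fin M) K)
    (B' : Matrix (Fin ℓ') (Fin M) K)
    (h : ∀ i, B'.row i ∈ Submodule.span K (Set.range B.row)) :
    ∃ g : Matrix (Fin ℓ') (Fin ℓ) K, B' = g * B := by
  have h' : ∀ i, ∃ c : Fin ℓ → K, ∑ k, c k • B.row k = B'.row i := fun i =>
    (Submodule.mem_span_range_iff_exists_fun K).mp (h i)
  choose g hg using h'
  refine ⟨Matrix.of g, ?_⟩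
  ext i t
  have := congrFun (hg i) t
  simp only [Finset.sum_apply, Pi.smul_apply, smul_eq_mul, Matrix.row] at this
  simp [Matrix.mul_apply, ← this]

variable [AdmissibleAbsValues K]

/-- Two matrices with the same number of linearly independent rows and the same row space have
Plücker vectors of the same height. -/
theorem mulHeight_plucker_eq_of_span_eq' (B B' : Matrix (Fin ℓ) (Fin M) K)
    (h' : LinearIndependent K B'.row)
    (hspan : Submodule.span K (Set.range B'.row) = Submodule.span K (Set.range B.row)) :
    mulHeight (plucker B') = mulHeight (plucker B) := by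
  obtain ⟨g, hg⟩ := exists_mul_eq_of_row_mem_span B B' fun i => by
    rw [← hspan]
    exact Submodule.subset_span ⟨i, rfl⟩
  have hdet : g.det ≠ 0 := by
    intro h0
    apply plucker_ne_zero B' h'
    rw [hg, plucker_mul, h0, zero_smul]
  rw [hg, plucker_mul, mulHeight_smul_eq_mulHeight _ hdet]

/-- Two matrices with linearly independent rows and the same row space have Plücker vectors of
the same height. -/
theorem mulHeight_plucker_eq_of_span_eq (B : Matrix (Fin ℓ) (Fin M) K)
    (B' : Matrix (Fin ℓ') (Fin M) K) (h : LinearIndependent K B.row)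
    (h' : LinearIndependent K B'.row)
    (hspan : Submodule.span K (Set.range B'.row) = Submodule.span K (Set.range B.row)) :
    mulHeight (plucker B') = mulHeight (plucker B) := by
  have hℓ : ℓ' = ℓ := by
    have h1 := linearIndependent_iff_card_eq_finrank_span.mp h
    have h2 := linearIndependent_iff_card_eq_finrank_span.mp h'
    simp only [Fintype.card_fin, Set.finrank] at h1 h2
    rw [h1, h2, hspan]
  subst hℓ
  exact mulHeight_plucker_eq_of_span_eq' B B' h' hspan

end plucker

section schmidt

variable {K : Type*} [Field K] {M : ℕ}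

/-- The matrix whose rows are the vectors of the standard finite basis of a subspace of `K^M`. -/
noncomputable def basisMatrix (V : Submodule K (Fin M → K)) :
    Matrix (Fin (Module.finrank K V)) (Fin M) K :=
  Matrix.of fun i => ((Module.finBasis K V i : V) : Fin M → K)

lemma basisMatrix_row (V : Submodule K (Fin M → K)) (i : Fin (Module.finrank K V)) :
    (basisMatrix V).row i = ((Module.finBasis K V i : V) : Fin M → K) := rfl

lemma linearIndependent_basisMatrix (V : Submodule K (Fin M → K)) :
    LinearIndependent K (basisMatrix V).row := by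
  have h := (Module.finBasis K V).linearIndependent
  exact h.map' V.subtype (Submodule.ker_subtype V)

lemma span_basisMatrix (V : Submodule K (Fin M → K)) :
    Submodule.span K (Set.range (basisMatrix V).row) = V := by
  have h := (Module.finBasis K V).span_eq
  have h2 : Set.range (basisMatrix V).row = V.subtype '' Set.range (Module.finBasis K V) := by
    ext x
    constructor
    · rintro ⟨i, rfl⟩
      exact ⟨Module.finBasis K V i, ⟨i, rfl⟩, rfl⟩
    · rintro ⟨_, ⟨i, rfl⟩, rfl⟩
      exact ⟨i, rfl⟩
  rw [h2, Submodule.span_image, h, Submodule.map_subtype_top]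

variable [AdmissibleAbsValues K]

/-- The multiplicative Schmidt height of a subspace `V ⊆ K^M`: the height of the vector of
maximal minors of a basis matrix. -/
noncomputable def schmidtMulHeight (V : Submodule K (Fin M → K)) : ℝ :=
  mulHeight (plucker (basisMatrix V))

/-- The logarithmic Schmidt height of a subspace. -/
noncomputable def schmidtLogHeight (V : Submodule K (Fin M → K)) : ℝ :=
  Real.log (schmidtMulHeight V)

/-- The Schmidt height can be computed from any basis. -/
theorem schmidtMulHeight_eq {ℓ : ℕ} (V : Submodule K (Fin M → K))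
    (B : Matrix (Fin ℓ) (Fin M) K) (h : LinearIndependent K B.row)
    (hspan : Submodule.span K (Set.range B.row) = V) :
    schmidtMulHeight V = mulHeight (plucker B) :=
  mulHeight_plucker_eq_of_span_eq B (basisMatrix V) h (linearIndependent_basisMatrix V)
    (by rw [span_basisMatrix, hspan])

theorem schmidtLogHeight_eq {ℓ : ℕ} (V : Submodule K (Fin M → K))
    (B : Matrix (Fin ℓ) (Fin M) K) (h : LinearIndependent K B.row)
    (hspan : Submodule.span K (Set.range B.row) = V) :
    schmidtLogHeight V = logHeight (plucker B) := by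
  rw [schmidtLogHeight, schmidtMulHeight_eq V B h hspan, logHeight]

theorem one_le_schmidtMulHeight (V : Submodule K (Fin M → K)) : 1 ≤ schmidtMulHeight V :=
  one_le_mulHeight _

theorem schmidtLogHeight_nonneg (V : Submodule K (Fin M → K)) : 0 ≤ schmidtLogHeight V :=
  Real.log_nonneg (one_le_schmidtMulHeight V)

end schmidt

section siegelSubspace

variable {M : ℕ}

/-- **Siegel's lemma for subspaces of `ℚ^M`.**  A nonzero subspace `V` of dimension `ℓ` contains
a nonzero vector `x` with `H(x) ^ ℓ ≤ ℓ ^ ℓ * H(V)`. -/
theorem exists_small_mem (V : Submodule ℚ (Fin M → ℚ)) (hV : V ≠ ⊥) :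
    ∃ x ∈ V, x ≠ 0 ∧ mulHeight x ^ Module.finrank ℚ V ≤
      (Module.finrank ℚ V : ℝ) ^ Module.finrank ℚ V * schmidtMulHeight V := by
  have hℓ : 0 < Module.finrank ℚ V := by
    rw [Module.finrank_pos_iff]
    exact Submodule.nontrivial_iff_ne_bot.mpr hV
  obtain ⟨c, -, hx, hH⟩ := exists_small_vector_of_linearIndependent hℓ (basisMatrix V)
    (linearIndependent_basisMatrix V)
  refine ⟨c ᵥ* basisMatrix V, ?_, hx, hH⟩
  have : c ᵥ* basisMatrix V = ∑ i, c i • (basisMatrix V).row i := by
    ext t
    simp [Matrix.vecMul, dotProduct, Matrix.row]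
  rw [this]
  exact Submodule.sum_mem _ fun i _ => Submodule.smul_mem _ _ (by
    rw [basisMatrix_row]
    exact Submodule.coe_mem _)

/-- Siegel's lemma for subspaces of `ℚ^M`, logarithmic form:
`h(x) ≤ h(V) / ℓ + log ℓ` for some nonzero `x ∈ V`. -/
theorem exists_small_mem_log (V : Submodule ℚ (Fin M → ℚ)) (hV : V ≠ ⊥) :
    ∃ x ∈ V, x ≠ 0 ∧ logHeight x ≤
      schmidtLogHeight V / Module.finrank ℚ V + Real.log (Module.finrank ℚ V) := by
  have hℓ : 0 < Module.finrank ℚ V := by
    rw [Module.finrank_pos_iff]
    exact Submodule.nontrivial_iff_ne_bot.mpr hV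
  obtain ⟨x, hxV, hx, hH⟩ := exists_small_mem V hV
  refine ⟨x, hxV, hx, ?_⟩
  have hℓ' : (0 : ℝ) < Module.finrank ℚ V := by exact_mod_cast hℓ
  have hS : schmidtMulHeight V ≠ 0 := (zero_lt_one.trans_le (one_le_schmidtMulHeight V)).ne'
  have h1 := Real.log_le_log (pow_pos (mulHeight_pos x) _) hH
  rw [Real.log_pow, Real.log_mul (pow_pos hℓ' _).ne' hS, Real.log_pow] at h1
  rw [logHeight, schmidtLogHeight, div_add' _ _ _ hℓ'.ne', le_div_iff₀ hℓ']
  linarith

end siegelSubspace

end Fermat.Agent.H40.MW
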