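import Fermat.Agent.H40.MW.SiegelCore
import Fermat.Agent.H40.MW.Minors

/-!
# P-MW: Siegel's lemma over `ℚ` with the Schmidt (Plücker) height and the sharp exponent

For a rational `ℓ × M` matrix `B` (`ℓ ≥ 1`) with a nonzero maximal minor there is a nonzero
vector `x = c ᵥ* B` in its row space with

`mulHeight x ^ ℓ ≤ ℓ ^ ℓ * mulHeight (Plücker coordinates of B)`.
-/

set_option autoImplicit false

namespace Fermat.Agent.H40.MW

open Matrix Height

section intHeight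

variable {ι : Type*} [Fintype ι] [Nonempty ι]

/-- The height of a nonzero integer vector is at most the maximum of the absolute values of its
coordinates. -/
theorem mulHeight_intCast_le (x : ι → ℤ) (hx : x ≠ 0) :
    mulHeight (((↑) : ℤ → ℚ) ∘ x) ≤ ((⨆ i, |x i| : ℤ) : ℝ) := by
  classical
  obtain ⟨y, hy, hgcd⟩ := Finset.extract_gcd x (Finset.univ_nonempty (α := ι))
  set g := Finset.univ.gcd x with hg
  have hg0 : g ≠ 0 := by
    intro h0
    apply hx
    ext i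
    exact Finset.gcd_eq_zero_iff.mp h0 i (Finset.mem_univ _)
  have hxy : (((↑) : ℤ → ℚ) ∘ x) = (g : ℚ) • (((↑) : ℤ → ℚ) ∘ y) := by
    ext i
    simp [hy i (Finset.mem_univ _)]
  rw [hxy, mulHeight_smul_eq_mulHeight _ (by exact_mod_cast hg0),
    Rat.mulHeight_eq_max_abs_of_gcd_eq_one hgcd]
  have hle : (⨆ i, |y i| : ℤ) ≤ ⨆ i, |x i| := by
    refine ciSup_le fun i => ?_
    refine le_trans ?_ (Finite.le_ciSup (fun i => |x i|) i)
    rw [hy i (Finset.mem_univ _), abs_mul]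
    have h1 : (1 : ℤ) ≤ |g| := Int.one_le_abs hg0
    nlinarith [abs_nonneg (y i)]
  exact_mod_cast hle

end intHeight

section siegel

variable {ℓ M : ℕ}

/-- Siegel's lemma for integer matrices, height form. -/
theorem exists_small_vector_int (hℓ : 0 < ℓ) (B : Matrix (Fin ℓ) (Fin M) ℤ)
    (h : ∃ e : Fin ℓ → Fin M, (B.submatrix id e).det ≠ 0) :
    ∃ (x : Fin M → ℤ) (c : Fin ℓ → ℚ), x ≠ 0 ∧
      ((↑) : ℤ → ℚ) ∘ x = c ᵥ* B.map (Int.cast : ℤ → ℚ) ∧
      mulHeight (((↑) : ℤ → ℚ) ∘ x) ^ ℓ ≤ (ℓ : ℝ) ^ ℓ *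
        mulHeight (fun e : Fin ℓ → Fin M => (((B.submatrix id e).det : ℤ) : ℚ)) := by
  classical
  obtain ⟨B', k, D, hk, hB', hD, hgcd⟩ := exists_saturated B h
  obtain ⟨e₁, he₁⟩ := h
  have : Nonempty (Fin ℓ → Fin M) := ⟨e₁⟩
  have : Nonempty (Fin M) := ⟨e₁ ⟨0, hℓ⟩⟩
  have he₁' : (B'.submatrix id e₁).det ≠ 0 := by
    intro h0
    apply he₁
    rw [hB' e₁, h0, mul_zero]
  obtain ⟨e₀, -, hmax⟩ := Finset.exists_max_image Finset.univ
    (fun e : Fin ℓ → Fin M => |(B'.submatrix id e).det|) Finset.univ_nonempty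
  have hmax' : ∀ e : Fin ℓ → Fin M, |(B'.submatrix id e).det| ≤ |(B'.submatrix id e₀).det| :=
    fun e => hmax e (Finset.mem_univ _)
  have he₀ : (B'.submatrix id e₀).det ≠ 0 := by
    intro h0
    have h1 := hmax' e₁
    rw [h0, abs_zero] at h1
    exact he₁' (abs_eq_zero.mp (le_antisymm h1 (abs_nonneg _)))
  obtain ⟨c, hc, hsmall⟩ := exists_small_row_combination hℓ B' e₀ he₀ hmax'
  have hx : c ᵥ* B' ≠ 0 := by
    intro h0
    apply hc
    apply Matrix.eq_zero_of_vecMul_eq_zero he₀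
    ext s
    have := congrFun h0 (e₀ s)
    simpa [Matrix.vecMul, dotProduct] using this
  refine ⟨c ᵥ* B', ((↑) : ℤ → ℚ) ∘ c ᵥ* D, hx, ?_, ?_⟩
  · rw [Matrix.vecMul_vecMul, ← hD]
    ext t
    simp [Matrix.vecMul, dotProduct]
  · -- the Plücker vector of `B` is `k` times that of `B'`
    have hpl : (fun e : Fin ℓ → Fin M => (((B.submatrix id e).det : ℤ) : ℚ)) =
        (k : ℚ) • (((↑) : ℤ → ℚ) ∘ fun e : Fin ℓ → Fin M => (B'.submatrix id e).det) := by
      ext e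
      simp [hB' e]
    rw [hpl, mulHeight_smul_eq_mulHeight _ (by exact_mod_cast hk),
      Rat.mulHeight_eq_max_abs_of_gcd_eq_one hgcd]
    have hsup : (⨆ e : Fin ℓ → Fin M, |(B'.submatrix id e).det|) = |(B'.submatrix id e₀).det| :=
      le_antisymm (ciSup_le hmax') (Finite.le_ciSup (fun e => |(B'.submatrix id e).det|) e₀)
    rw [hsup]
    obtain ⟨t₀, ht₀⟩ := exists_eq_ciSup_of_finite (f := fun t => |(c ᵥ* B') t|)
    have h1 := mulHeight_intCast_le (c ᵥ* B') hx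
    rw [← ht₀] at h1
    have h2 : ((|(c ᵥ* B') t₀| : ℤ) : ℝ) ^ ℓ ≤ (ℓ : ℝ) ^ ℓ * ((|(B'.submatrix id e₀).det| : ℤ) : ℝ) := by
      exact_mod_cast hsmall t₀
    exact (pow_le_pow_left₀ (mulHeight_pos _).le h1 ℓ).trans h2

/-- **Siegel's lemma over `ℚ` with the Schmidt height and the sharp exponent.**  For a rational
`ℓ × M` matrix `B` with a nonzero maximal minor there is a nonzero vector `x = c ᵥ* B` in its
row space such that `H(x) ^ ℓ ≤ ℓ ^ ℓ * H(B)`, where `H(B)` is the height of the vector of all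
maximal minors of `B`. -/
theorem exists_small_vector (hℓ : 0 < ℓ) (B : Matrix (Fin ℓ) (Fin M) ℚ)
    (h : ∃ e : Fin ℓ → Fin M, (B.submatrix id e).det ≠ 0) :
    ∃ c : Fin ℓ → ℚ, c ≠ 0 ∧ c ᵥ* B ≠ 0 ∧
      mulHeight (c ᵥ* B) ^ ℓ ≤ (ℓ : ℝ) ^ ℓ *
        mulHeight (fun e : Fin ℓ → Fin M => (B.submatrix id e).det) := by
  classical
  obtain ⟨d, hd⟩ := IsLocalization.exist_integer_multiples_of_finite (nonZeroDivisors ℤ)
    (fun p : Fin ℓ × Fin M => B p.1 p.2)
  choose B₀ hB₀ using hd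
  have hd0 : ((d : ℤ) : ℚ) ≠ 0 := by
    have := nonZeroDivisors.coe_ne_zero d
    exact_mod_cast this
  have hmap : (Matrix.of fun i j => B₀ (i, j)).map (Int.cast : ℤ → ℚ) = ((d : ℤ) : ℚ) • B := by
    ext i j
    have := hB₀ (i, j)
    simp only [Matrix.map_apply, Matrix.of_apply, Matrix.smul_apply]
    rw [← eq_intCast (algebraMap ℤ ℚ), this]
    simp [Algebra.smul_def]
  set B₁ : Matrix (Fin ℓ) (Fin M) ℤ := Matrix.of fun i j => B₀ (i, j) with hB₁
  have hminor : ∀ e : Fin ℓ → Fin M, (((B₁.submatrix id e).det : ℤ) : ℚ) =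
      ((d : ℤ) : ℚ) ^ ℓ * (B.submatrix id e).det := by
    intro e
    have h1 := RingHom.map_det (Int.castRingHom ℚ) (B₁.submatrix id e)
    rw [RingHom.mapMatrix_apply] at h1
    have h2 : (B₁.submatrix id e).map (Int.castRingHom ℚ) =
        ((d : ℤ) : ℚ) • B.submatrix id e := by
      have : (B₁.submatrix id e).map (Int.castRingHom ℚ) =
          (B₁.map (Int.cast : ℤ → ℚ)).submatrix id e := by
        ext i j
        simp
      rw [this, hmap]
      ext i j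
      simp
    rw [h2, Matrix.det_smul, Fintype.card_fin] at h1
    simpa using h1
  have h₁ : ∃ e : Fin ℓ → Fin M, (B₁.submatrix id e).det ≠ 0 := by
    obtain ⟨e, he⟩ := h
    refine ⟨e, fun h0 => ?_⟩
    have := hminor e
    rw [h0, Int.cast_zero] at this
    exact he ((mul_eq_zero.mp this.symm).resolve_left (pow_ne_zero _ hd0))
  obtain ⟨x, c, hx, hxc, hH⟩ := exists_small_vector_int hℓ B₁ h₁
  have hxc' : ((↑) : ℤ → ℚ) ∘ x = (((d : ℤ) : ℚ) • c) ᵥ* B := by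
    rw [hxc, hmap, Matrix.vecMul_smul, Matrix.smul_vecMul]
  have hx' : (((d : ℤ) : ℚ) • c) ᵥ* B ≠ 0 := by
    rw [← hxc']
    intro h0
    apply hx
    ext t
    have := congrFun h0 t
    simpa using this
  refine ⟨((d : ℤ) : ℚ) • c, ?_, hx', ?_⟩
  · intro h0
    apply hx'
    rw [h0, Matrix.zero_vecMul]
  · rw [← hxc']
    have hpl : (fun e : Fin ℓ → Fin M => (((B₁.submatrix id e).det : ℤ) : ℚ)) =
        (((d : ℤ) : ℚ) ^ ℓ) • (fun e : Fin ℓ → Fin M => (B.submatrix id e).det) := by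
      ext e
      simp [hminor e]
    rw [hpl, mulHeight_smul_eq_mulHeight _ (pow_ne_zero _ hd0)] at hH
    exact hH

/-- Siegel's lemma over `ℚ`, for a matrix with linearly independent rows. -/
theorem exists_small_vector_of_linearIndependent (hℓ : 0 < ℓ) (B : Matrix (Fin ℓ) (Fin M) ℚ)
    (h : LinearIndependent ℚ B.row) :
    ∃ c : Fin ℓ → ℚ, c ≠ 0 ∧ c ᵥ* B ≠ 0 ∧
      mulHeight (c ᵥ* B) ^ ℓ ≤ (ℓ : ℝ) ^ ℓ *
        mulHeight (fun e : Fin ℓ → Fin M => (B.submatrix id e).det) :=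
  exists_small_vector hℓ B (exists_minor_ne_zero_of_linearIndependent B h)

/-- Siegel's lemma over `ℚ`, logarithmic form:
`ℓ * h(x) ≤ ℓ * log ℓ + h(Plücker coordinates of B)`. -/
theorem exists_small_vector_log (hℓ : 0 < ℓ) (B : Matrix (Fin ℓ) (Fin M) ℚ)
    (h : ∃ e : Fin ℓ → Fin M, (B.submatrix id e).det ≠ 0) :
    ∃ c : Fin ℓ → ℚ, c ≠ 0 ∧ c ᵥ* B ≠ 0 ∧
      (ℓ : ℝ) * logHeight (c ᵥ* B) ≤ (ℓ : ℝ) * Real.log ℓ +
        logHeight (fun e : Fin ℓ → Fin M => (B.submatrix id e).det) := by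
  obtain ⟨c, hc, hx, hH⟩ := exists_small_vector hℓ B h
  refine ⟨c, hc, hx, ?_⟩
  have hℓ' : (0 : ℝ) < ℓ := by exact_mod_cast hℓ
  have h1 := Real.log_le_log (pow_pos (mulHeight_pos (c ᵥ* B)) ℓ) hH
  rw [Real.log_pow, Real.log_mul (pow_pos hℓ' ℓ).ne' (mulHeight_ne_zero _), Real.log_pow] at h1
  simpa [logHeight] using h1

end siegel

end Fermat.Agent.H40.MW
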