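import Mathlib

/-!
# P-MW: Siegel's lemma with the sharp exponent, by pigeonhole (integer core)

Let `B` be an `ℓ × M` integer matrix and `H ≥ 1` a bound for the absolute values of all its
`ℓ × ℓ` minors, attained at the column selection `e₀`.  Then there is a nonzero integer row vector
`c` such that every coordinate `t` of `v = c ᵥ* B` satisfies `|v t| ^ ℓ ≤ ℓ ^ ℓ * H`.

Proof: the projection of the row lattice to the coordinates in `e₀` has index `H` in `ℤ^ℓ`, so by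
the pigeonhole principle it contains a nonzero vector with coordinates `≤ H^(1/ℓ)`; Cramer's rule
bounds the other coordinates by `ℓ` times the maximum of these.
-/

set_option autoImplicit false

namespace Fermat.Agent.H40.MW

open Matrix

section cramer

variable {ℓ M : ℕ}

/-- Replacing column `s` of the selected square submatrix by column `t` of `B` is again a
selected submatrix. -/
lemma submatrix_updateCol (B : Matrix (Fin ℓ) (Fin M) ℤ) (e₀ : Fin ℓ → Fin M) (s : Fin ℓ)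
    (t : Fin M) :
    (B.submatrix id e₀).updateCol s (fun i => B i t) =
      B.submatrix id (Function.update e₀ s t) := by
  ext i j
  by_cases h : j = s
  · subst h
    simp
  · simp [h]

/-- Cramer's rule for the coordinates of a row combination. -/
lemma det_mul_vecMul_apply (B : Matrix (Fin ℓ) (Fin M) ℤ) (e₀ : Fin ℓ → Fin M)
    (c : Fin ℓ → ℤ) (t : Fin M) :
    (B.submatrix id e₀).det * (c ᵥ* B) t =
      ∑ s, (c ᵥ* B) (e₀ s) * (B.submatrix id (Function.update e₀ s t)).det := by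
  set A := B.submatrix id e₀ with hA
  have h1 : ∀ s, (c ᵥ* B) (e₀ s) = (c ᵥ* A) s := by
    intro s
    simp [Matrix.vecMul, dotProduct, hA]
  have h2 : ∀ s, (B.submatrix id (Function.update e₀ s t)).det =
      (A.adjugate *ᵥ (fun i => B i t)) s := by
    intro s
    rw [← submatrix_updateCol, ← Matrix.cramer_apply, Matrix.cramer_eq_adjugate_mulVec]
  simp_rw [h1, h2]
  -- `∑ s, (c ᵥ* A) s * (adj A *ᵥ b) s = (c ᵥ* A) ⬝ᵥ (adj A *ᵥ b) = c ⬝ᵥ (A * adj A) *ᵥ b`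
  have h3 : ∑ s, (c ᵥ* A) s * (A.adjugate *ᵥ (fun i => B i t)) s =
      (c ᵥ* A) ⬝ᵥ (A.adjugate *ᵥ (fun i => B i t)) := rfl
  rw [h3, Matrix.dotProduct_mulVec, Matrix.vecMul_vecMul, Matrix.mul_adjugate,
    Matrix.vecMul_smul, Matrix.vecMul_one, smul_dotProduct]
  simp [Matrix.vecMul, dotProduct]

end cramer

section pigeonhole

variable {ℓ : ℕ}

/-- The row lattice of a square integer matrix with nonzero determinant has index `|det|`. -/
lemma card_quotient_range_vecMul (A : Matrix (Fin ℓ) (Fin ℓ) ℤ) (hA : A.det ≠ 0) :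
    Nat.card ((Fin ℓ → ℤ) ⧸ LinearMap.range (Matrix.toLin' Aᵀ)) = A.det.natAbs := by
  set f : (Fin ℓ → ℤ) →ₗ[ℤ] (Fin ℓ → ℤ) := Matrix.toLin' Aᵀ with hf
  have hinj : Function.Injective f := by
    rw [injective_iff_map_eq_zero]
    intro c hc
    exact Matrix.eq_zero_of_mulVec_eq_zero (by rwa [Matrix.det_transpose]) hc
  let e : (Fin ℓ → ℤ) ≃ₗ[ℤ] LinearMap.range f := LinearEquiv.ofInjective f hinj
  have h := Submodule.natAbs_det_equiv (LinearMap.range f) e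
  have hcomp : (LinearMap.range f).subtype ∘ₗ
      AddMonoidHom.toIntLinearMap ((e : (Fin ℓ → ℤ) →+ LinearMap.range f)) = f := by
    ext x i
    rfl
  rw [hcomp, hf, LinearMap.det_toLin', Matrix.det_transpose] at h
  exact h.symm

/-- **Pigeonhole.** If `|det A| < (b + 1) ^ ℓ` there is a nonzero integer vector `c` with all
coordinates of `c ᵥ* A` bounded by `b` in absolute value. -/
lemma exists_vecMul_small (A : Matrix (Fin ℓ) (Fin ℓ) ℤ) (hA : A.det ≠ 0) (b : ℕ)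
    (hb : A.det.natAbs < (b + 1) ^ ℓ) :
    ∃ c : Fin ℓ → ℤ, c ≠ 0 ∧ ∀ s, |(c ᵥ* A) s| ≤ (b : ℤ) := by
  set N := LinearMap.range (Matrix.toLin' Aᵀ) with hN
  have hcard := card_quotient_range_vecMul A hA
  have hfin : Finite ((Fin ℓ → ℤ) ⧸ N) := by
    apply Nat.finite_of_card_ne_zero
    rw [hcard]
    exact Int.natAbs_ne_zero.mpr hA
  let _ : Fintype ((Fin ℓ → ℤ) ⧸ N) := Fintype.ofFinite _
  let g : (Fin ℓ → Fin (b + 1)) → ((Fin ℓ → ℤ) ⧸ N) :=
    fun w => Submodule.Quotient.mk (fun i => ((w i : ℕ) : ℤ))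
  have hlt : Fintype.card ((Fin ℓ → ℤ) ⧸ N) < Fintype.card (Fin ℓ → Fin (b + 1)) := by
    rw [← Nat.card_eq_fintype_card, hcard]
    simpa using hb
  obtain ⟨w, w', hne, heq⟩ := Fintype.exists_ne_map_eq_of_card_lt g hlt
  have hmem : (fun i => ((w i : ℕ) : ℤ)) - (fun i => ((w' i : ℕ) : ℤ)) ∈ N :=
    (Submodule.Quotient.eq N).mp heq
  obtain ⟨c, hc⟩ := hmem
  have hc' : c ᵥ* A = (fun i => ((w i : ℕ) : ℤ)) - (fun i => ((w' i : ℕ) : ℤ)) := by
    rw [← hc, Matrix.toLin'_apply, Matrix.mulVec_transpose]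
  refine ⟨c, ?_, fun s => ?_⟩
  · rintro rfl
    apply hne
    funext i
    have := congrFun hc' i
    simp only [Matrix.zero_vecMul, Pi.zero_apply, Pi.sub_apply] at this
    have h2 : ((w i : ℕ) : ℤ) = ((w' i : ℕ) : ℤ) := by linarith
    exact Fin.ext (by exact_mod_cast h2)
  · rw [hc']
    simp only [Pi.sub_apply]
    have h1 : ((w s : ℕ) : ℤ) ≤ b := by exact_mod_cast Nat.lt_succ_iff.mp (w s).2
    have h2 : ((w' s : ℕ) : ℤ) ≤ b := by exact_mod_cast Nat.lt_succ_iff.mp (w' s).2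
    have h3 : (0 : ℤ) ≤ ((w s : ℕ) : ℤ) := Int.natCast_nonneg _
    have h4 : (0 : ℤ) ≤ ((w' s : ℕ) : ℤ) := Int.natCast_nonneg _
    rw [abs_le]
    constructor <;> linarith

end pigeonhole

section main

variable {ℓ M : ℕ}

/-- For `ℓ ≥ 1` and `H ≥ 1` there is `b` with `b ^ ℓ ≤ H < (b + 1) ^ ℓ`. -/
lemma exists_floor_root (hℓ : 0 < ℓ) (H : ℕ) : ∃ b : ℕ, b ^ ℓ ≤ H ∧ H < (b + 1) ^ ℓ := by
  have h0 : (0 : ℕ) ^ ℓ ≤ H := by rw [zero_pow hℓ.ne']; exact Nat.zero_le _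
  refine ⟨Nat.findGreatest (fun b => b ^ ℓ ≤ H) H, Nat.findGreatest_spec (P := fun b => b ^ ℓ ≤ H)
    (Nat.zero_le H) h0, ?_⟩
  by_contra hcon
  rw [not_lt] at hcon
  have hle : Nat.findGreatest (fun b => b ^ ℓ ≤ H) H + 1 ≤ H := by
    calc Nat.findGreatest (fun b => b ^ ℓ ≤ H) H + 1
        ≤ (Nat.findGreatest (fun b => b ^ ℓ ≤ H) H + 1) ^ ℓ := Nat.le_self_pow hℓ.ne' _
      _ ≤ H := hcon
  have := Nat.le_findGreatest (P := fun b => b ^ ℓ ≤ H) hle hcon
  omega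

/-- **Siegel's lemma with the sharp exponent (integer core).** -/
theorem exists_small_row_combination (hℓ : 0 < ℓ) (B : Matrix (Fin ℓ) (Fin M) ℤ)
    (e₀ : Fin ℓ → Fin M) (h₀ : (B.submatrix id e₀).det ≠ 0)
    (hmax : ∀ e : Fin ℓ → Fin M,
      |(B.submatrix id e).det| ≤ |(B.submatrix id e₀).det|) :
    ∃ c : Fin ℓ → ℤ, c ≠ 0 ∧
      ∀ t, |(c ᵥ* B) t| ^ ℓ ≤ (ℓ : ℤ) ^ ℓ * |(B.submatrix id e₀).det| := by
  set A := B.submatrix id e₀ with hA
  obtain ⟨b, hb1, hb2⟩ := exists_floor_root hℓ A.det.natAbs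
  obtain ⟨c, hc0, hc⟩ := exists_vecMul_small A h₀ b hb2
  refine ⟨c, hc0, fun t => ?_⟩
  have hHpos : 0 < |A.det| := abs_pos.mpr h₀
  -- coordinates in `e₀`
  have hu : ∀ s, |(c ᵥ* B) (e₀ s)| ≤ (b : ℤ) := by
    intro s
    have : (c ᵥ* B) (e₀ s) = (c ᵥ* A) s := by simp [Matrix.vecMul, dotProduct, hA]
    rw [this]
    exact hc s
  -- Cramer
  have hcr := det_mul_vecMul_apply B e₀ c t
  have h1 : |A.det| * |(c ᵥ* B) t| ≤ (ℓ : ℤ) * b * |A.det| := by
    rw [← abs_mul, hcr]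
    calc |∑ s, (c ᵥ* B) (e₀ s) * (B.submatrix id (Function.update e₀ s t)).det|
        ≤ ∑ s, |(c ᵥ* B) (e₀ s) * (B.submatrix id (Function.update e₀ s t)).det| :=
          Finset.abs_sum_le_sum_abs _ _
      _ ≤ ∑ _s : Fin ℓ, (b : ℤ) * |A.det| := by
          apply Finset.sum_le_sum
          intro s _
          rw [abs_mul]
          exact mul_le_mul (hu s) (hmax _) (abs_nonneg _) (Int.natCast_nonneg _)
      _ = (ℓ : ℤ) * b * |A.det| := by
          rw [Finset.sum_const, Finset.card_univ, Fintype.card_fin, nsmul_eq_mul]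
          ring
  have h2 : |(c ᵥ* B) t| ≤ (ℓ : ℤ) * b := by
    have : |A.det| * |(c ᵥ* B) t| ≤ |A.det| * ((ℓ : ℤ) * b) := by
      calc |A.det| * |(c ᵥ* B) t| ≤ (ℓ : ℤ) * b * |A.det| := h1
        _ = |A.det| * ((ℓ : ℤ) * b) := by ring
    exact le_of_mul_le_mul_left this hHpos
  have hbH : ((b : ℤ)) ^ ℓ ≤ |A.det| := by
    have : ((b ^ ℓ : ℕ) : ℤ) ≤ (A.det.natAbs : ℤ) := by exact_mod_cast hb1
    rwa [Nat.cast_pow, Int.natCast_natAbs] at this
  calc |(c ᵥ* B) t| ^ ℓ ≤ ((ℓ : ℤ) * b) ^ ℓ := pow_le_pow_left₀ (abs_nonneg _) h2 ℓ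
    _ = (ℓ : ℤ) ^ ℓ * (b : ℤ) ^ ℓ := mul_pow _ _ _
    _ ≤ (ℓ : ℤ) ^ ℓ * |A.det| := by
        apply mul_le_mul_of_nonneg_left hbH
        positivity

end main

end Fermat.Agent.H40.MW
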