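import Fermat.Agent.H40.MW.WCubeVal
import Fermat.Agent.H3.MW.PtSquarefree
import Fermat.Agent.H98.MW.PtDataMul

/-!
# P-MW / GTA-9 (row 884): the WCUBE contract

The cube relation
`G_m(I₁I₂I₃) - G_m(I₁I₂) - G_m(I₁I₃) - G_m(I₂I₃) + G_m(I₁) + G_m(I₂) + G_m(I₃) = O(1)`
for pairwise coprime squarefree ideals, from the GT principle applied to the two systems
`Δ₁₂₃ Δ₁ Δ₂ Δ₃` and `Δ₁₂ Δ₁₃ Δ₂₃` of products of generic minors in the tensor power of `R`; the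
valuative hypothesis is the local product formula (`sup_sysA_eq_sup_sysB`).
-/

set_option autoImplicit false

noncomputable section

open Module

namespace Fermat.Agent.H40.MW

open Fermat.Agent.H92.MW Fermat.Agent.H3.MW Height

section rows

variable {X : Type*} {d₁ d₂ d₃ : ℕ} (P₁ : Fin d₁ → X) (P₂ : Fin d₂ → X) (P₃ : Fin d₃ → X)

lemma append3_comp_row1 :
    Fin.append (Fin.append P₁ P₂) P₃ ∘ row1 d₁ d₂ d₃ = P₁ := by
  funext a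
  simp [row1, Fin.append_left]

lemma append3_comp_row2 :
    Fin.append (Fin.append P₁ P₂) P₃ ∘ row2 d₁ d₂ d₃ = P₂ := by
  funext a
  simp [row2, Fin.append_left, Fin.append_right]

lemma append3_comp_row3 :
    Fin.append (Fin.append P₁ P₂) P₃ ∘ row3 d₁ d₂ d₃ = P₃ := by
  funext a
  simp [row3, Fin.append_right]

lemma append3_comp_row12 :
    Fin.append (Fin.append P₁ P₂) P₃ ∘ row12 d₁ d₂ d₃ = Fin.append P₁ P₂ := by
  rw [comp_row12, append3_comp_row1, append3_comp_row2]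

lemma append3_comp_row13 :
    Fin.append (Fin.append P₁ P₂) P₃ ∘ row13 d₁ d₂ d₃ = Fin.append P₁ P₃ := by
  rw [comp_row13, append3_comp_row1, append3_comp_row3]

lemma append3_comp_row23 :
    Fin.append (Fin.append P₁ P₂) P₃ ∘ row23 d₁ d₂ d₃ = Fin.append P₂ P₃ := by
  rw [comp_row23, append3_comp_row2, append3_comp_row3]

end rows

section heights

variable {ι₀ ι₁ ι₂ ι₃ : Type*} [Finite ι₀] [Finite ι₁] [Finite ι₂] [Finite ι₃]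

lemma logHeight_prod3 {x₁ : ι₁ → ℚ} {x₂ : ι₂ → ℚ} {x₃ : ι₃ → ℚ}
    (h₁ : x₁ ≠ 0) (h₂ : x₂ ≠ 0) (h₃ : x₃ ≠ 0) :
    logHeight (fun p : ι₁ × (ι₂ × ι₃) => x₁ p.1 * (x₂ p.2.1 * x₃ p.2.2)) =
      logHeight x₁ + (logHeight x₂ + logHeight x₃) := by
  have h23 : (fun q : ι₂ × ι₃ => x₂ q.1 * x₃ q.2) ≠ 0 := prod_fun_ne_zero h₂ h₃
  have := logHeight_fun_mul_eq h₁ h23
  rw [logHeight_fun_mul_eq h₂ h₃] at this
  exact this

lemma logHeight_prod4 {x₀ : ι₀ → ℚ} {x₁ : ι₁ → ℚ} {x₂ : ι₂ → ℚ} {x₃ : ι₃ → ℚ}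
    (h₀ : x₀ ≠ 0) (h₁ : x₁ ≠ 0) (h₂ : x₂ ≠ 0) (h₃ : x₃ ≠ 0) :
    logHeight (fun p : ι₀ × (ι₁ × (ι₂ × ι₃)) =>
        x₀ p.1 * (x₁ p.2.1 * (x₂ p.2.2.1 * x₃ p.2.2.2))) =
      logHeight x₀ + (logHeight x₁ + (logHeight x₂ + logHeight x₃)) := by
  have h23 : (fun q : ι₂ × ι₃ => x₂ q.1 * x₃ q.2) ≠ 0 := prod_fun_ne_zero h₂ h₃
  have h123 : (fun q : ι₁ × (ι₂ × ι₃) => x₁ q.1 * (x₂ q.2.1 * x₃ q.2.2)) ≠ 0 :=
    prod_fun_ne_zero h₁ h23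
  have := logHeight_fun_mul_eq h₀ h123
  rw [logHeight_prod3 h₁ h₂ h₃] at this
  exact this

end heights

section ideals

variable {R : Type} [CommRing R] [Algebra ℚ R] [IsDedekindDomain R]

lemma sup_eq_top_of_squarefree_mul {I J : Ideal R} (h : Squarefree (I * J)) :
    I ⊔ J = ⊤ :=
  sup_eq_top_of_isRelPrime (squarefree_mul_iff.mp h).1

end ideals

variable {R : Type} [CommRing R] [Algebra ℚ R] [IsDedekindDomain R]

/-- **GTA-9 (WCUBE)** -/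
theorem wcube (𝒞 : MWDatum R) (hB : BasicStatement 𝒞) (hGT : GTPrincipleStatement)
    (hLPF : LPFStatement 𝒞) (hT : TensorPointStatement)
    (hPt : PtDataSquarefreeStatement 𝒞) (hMul : PtDataMulStatement 𝒞)
    (hGH : GHEqStatement 𝒞) : 𝒞.WCubeStatement := by
  intro m d₁ d₂ d₃ hm
  by_cases hdn : d₁ + d₂ + d₃ ≤ finrank ℚ (𝒞.W m)
  swap
  · refine ⟨0, fun I₁ I₂ I₃ h0 _ hd1 hd2 hd3 => ?_⟩
    exfalso
    apply hdn
    have h12 : I₁ * I₂ ≠ ⊥ := by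
      intro h
      exact h0 (by rw [h, Ideal.bot_mul])
    have h3 : I₃ ≠ ⊥ := by
      rintro rfl
      exact h0 (by rw [Ideal.mul_bot])
    have h1 : I₁ ≠ ⊥ := by
      rintro rfl
      exact h12 (by rw [Ideal.bot_mul])
    have h2 : I₂ ≠ ⊥ := by
      rintro rfl
      exact h12 (by rw [Ideal.mul_bot])
    have hdeg : 𝒞.deg (I₁ * I₂ * I₃) = d₁ + d₂ + d₃ := by
      rw [hB.2.2.2.2.1 _ _ h12 h3, hB.2.2.2.2.1 _ _ h1 h2, hd1, hd2, hd3]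
    have e1 := hB.2.1 (I₁ * I₂ * I₃) m h0 (by rw [hdeg]; exact hm)
    have e2 := 𝒞.W_finrank m (by omega)
    rw [hdeg] at e1
    omega
  have : Nonempty (MinorIdx (finrank ℚ (𝒞.W m)) (d₁ + d₂ + d₃)) := minorIdx_nonempty hdn
  have : Nonempty (MinorIdx (finrank ℚ (𝒞.W m)) d₁) := minorIdx_nonempty (by omega)
  have : Nonempty (MinorIdx (finrank ℚ (𝒞.W m)) d₂) := minorIdx_nonempty (by omega)
  have : Nonempty (MinorIdx (finrank ℚ (𝒞.W m)) d₃) := minorIdx_nonempty (by omega)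
  have : Nonempty (MinorIdx (finrank ℚ (𝒞.W m)) (d₁ + d₂)) := minorIdx_nonempty (by omega)
  have : Nonempty (MinorIdx (finrank ℚ (𝒞.W m)) (d₁ + d₃)) := minorIdx_nonempty (by omega)
  have : Nonempty (MinorIdx (finrank ℚ (𝒞.W m)) (d₂ + d₃)) := minorIdx_nonempty (by omega)
  obtain ⟨C, hC⟩ := hGT (TPow R (d₁ + d₂ + d₃)) (IdxA (finrank ℚ (𝒞.W m)) d₁ d₂ d₃)
    (IdxB (finrank ℚ (𝒞.W m)) d₁ d₂ d₃) (sysA 𝒞 m d₁ d₂ d₃) (sysB 𝒞 m d₁ d₂ d₃) (by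
      intro K _ _ _ V hV y
      have key := sup_sysA_eq_sup_sysB 𝒞 V m y hLPF hV hm
      exact ⟨fun i => exists_le_of_sup_le _ _ key.le i,
        fun j => exists_le_of_sup_le _ _ key.ge j⟩)
  refine ⟨C, fun I₁ I₂ I₃ h0 hsq hd1 hd2 hd3 => ?_⟩
  subst hd1 hd2 hd3
  -- the ideals
  have h12 : I₁ * I₂ ≠ ⊥ := by
    intro h
    exact h0 (by rw [h, Ideal.bot_mul])
  have h3 : I₃ ≠ ⊥ := by
    rintro rfl
    exact h0 (by rw [Ideal.mul_bot])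
  have h1 : I₁ ≠ ⊥ := by
    rintro rfl
    exact h12 (by rw [Ideal.bot_mul])
  have h2 : I₂ ≠ ⊥ := by
    rintro rfl
    exact h12 (by rw [Ideal.mul_bot])
  have h13 : I₁ * I₃ ≠ ⊥ := mul_ne_zero h1 h3
  have h23 : I₂ * I₃ ≠ ⊥ := mul_ne_zero h2 h3
  have hsq12 : Squarefree (I₁ * I₂) := Squarefree.of_mul_left hsq
  have hsq3 : Squarefree I₃ := Squarefree.of_mul_right hsq
  have hsq1 : Squarefree I₁ := Squarefree.of_mul_left hsq12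
  have hsq2 : Squarefree I₂ := Squarefree.of_mul_right hsq12
  have hsq13 : Squarefree (I₁ * I₃) := by
    have : I₁ * I₂ * I₃ = I₁ * I₃ * I₂ := mul_right_comm _ _ _
    rw [this] at hsq
    exact Squarefree.of_mul_left hsq
  have hsq23 : Squarefree (I₂ * I₃) := by
    rw [mul_assoc] at hsq
    exact Squarefree.of_mul_right hsq
  have hc12 : I₁ ⊔ I₂ = ⊤ := sup_eq_top_of_squarefree_mul hsq12
  have hc13 : I₁ ⊔ I₃ = ⊤ := sup_eq_top_of_squarefree_mul hsq13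
  have hc23 : I₂ ⊔ I₃ = ⊤ := sup_eq_top_of_squarefree_mul hsq23
  have hc123 : I₁ * I₂ ⊔ I₃ = ⊤ := sup_eq_top_of_squarefree_mul hsq
  -- the points dictionaries
  obtain ⟨P₁, M₁, E₁, hp1⟩ := hPt I₁ h1 hsq1
  obtain ⟨P₂, M₂, E₂, hp2⟩ := hPt I₂ h2 hsq2
  obtain ⟨P₃, M₃, E₃, hp3⟩ := hPt I₃ h3 hsq3
  have hp12 := hMul I₁ I₂ _ _ P₁ M₁ E₁ P₂ M₂ E₂ hc12 (hB.2.2.2.2.2 _ _ h1 h2) hp1 hp2
  have hp13 := hMul I₁ I₃ _ _ P₁ M₁ E₁ P₃ M₃ E₃ hc13 (hB.2.2.2.2.2 _ _ h1 h3) hp1 hp3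
  have hp23 := hMul I₂ I₃ _ _ P₂ M₂ E₂ P₃ M₃ E₃ hc23 (hB.2.2.2.2.2 _ _ h2 h3) hp2 hp3
  have hp123 := hMul (I₁ * I₂) I₃ _ _ _ _ _ P₃ M₃ E₃ hc123 (hB.2.2.2.2.2 _ _ h12 h3) hp12 hp3
  -- the heights
  obtain ⟨hl1, hg1⟩ := hGH I₁ _ P₁ M₁ E₁ hp1 h1 rfl m (by omega)
  obtain ⟨hl2, hg2⟩ := hGH I₂ _ P₂ M₂ E₂ hp2 h2 rfl m (by omega)
  obtain ⟨hl3, hg3⟩ := hGH I₃ _ P₃ M₃ E₃ hp3 h3 rfl m (by omega)
  obtain ⟨hl12, hg12⟩ := hGH (I₁ * I₂) _ _ _ _ hp12 h12 (hB.2.2.2.2.1 _ _ h1 h2) m (by omega)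
  obtain ⟨hl13, hg13⟩ := hGH (I₁ * I₃) _ _ _ _ hp13 h13 (hB.2.2.2.2.1 _ _ h1 h3) m (by omega)
  obtain ⟨hl23, hg23⟩ := hGH (I₂ * I₃) _ _ _ _ hp23 h23 (hB.2.2.2.2.1 _ _ h2 h3) m (by omega)
  obtain ⟨hl123, hg123⟩ := hGH (I₁ * I₂ * I₃) _ _ _ _ hp123 h0
    (by rw [hB.2.2.2.2.1 _ _ h12 h3, hB.2.2.2.2.1 _ _ h1 h2]) m hm
  -- the point of the tensor power
  obtain ⟨y, hy⟩ := hT R (𝒞.deg I₁ + 𝒞.deg I₂ + 𝒞.deg I₃) QQbar
    (Fin.append (Fin.append P₁ P₂) P₃)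
  have hpts : pts y = Fin.append (Fin.append P₁ P₂) P₃ := pts_eq_of_comp y _ hy
  have hD1 : M₁.det ≠ 0 := hp1.2.2.1
  have hD2 : M₂.det ≠ 0 := hp2.2.2.1
  have hD3 : M₃.det ≠ 0 := hp3.2.2.1
  have hCy := hC y (((M₁.det * M₂.det * M₃.det) ^ 2)⁻¹)
    (fun p => minorVec (stackE (stackE (E₁ m) (E₂ m)) (E₃ m)) p.1 *
      (minorVec (E₁ m) p.2.1 * (minorVec (E₂ m) p.2.2.1 * minorVec (E₃ m) p.2.2.2)))
    (fun p => minorVec (stackE (E₁ m) (E₂ m)) p.1 *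
      (minorVec (stackE (E₁ m) (E₃ m)) p.2.1 * minorVec (stackE (E₂ m) (E₃ m)) p.2.2))
    (inv_ne_zero (pow_ne_zero _ (mul_ne_zero (mul_ne_zero hD1 hD2) hD3))) (by
      intro p
      have e : y (sysA 𝒞 m _ _ _ p) =
          (M₁.det * M₂.det * M₃.det *
            algebraMap ℚ QQbar (minorVec (stackE (stackE (E₁ m) (E₂ m)) (E₃ m)) p.1)) *
          ((M₁.det * algebraMap ℚ QQbar (minorVec (E₁ m) p.2.1)) *
            ((M₂.det * algebraMap ℚ QQbar (minorVec (E₂ m) p.2.2.1)) *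
              (M₃.det * algebraMap ℚ QQbar (minorVec (E₃ m) p.2.2.2)))) := by
        simp only [sysA, map_mul, map_genMinor, Function.comp_id]
        rw [hpts, append3_comp_row1, append3_comp_row2, append3_comp_row3,
          minorVec_evalMatrix_of_isPtData 𝒞 hp123, minorVec_evalMatrix_of_isPtData 𝒞 hp1,
          minorVec_evalMatrix_of_isPtData 𝒞 hp2, minorVec_evalMatrix_of_isPtData 𝒞 hp3,
          Fermat.Agent.H98.MW.det_blockM, Fermat.Agent.H98.MW.det_blockM]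
      rw [e]
      simp only [map_mul]
      field_simp) (by
      intro p
      have e : y (sysB 𝒞 m _ _ _ p) =
          (M₁.det * M₂.det *
            algebraMap ℚ QQbar (minorVec (stackE (E₁ m) (E₂ m)) p.1)) *
          ((M₁.det * M₃.det * algebraMap ℚ QQbar (minorVec (stackE (E₁ m) (E₃ m)) p.2.1)) *
            (M₂.det * M₃.det * algebraMap ℚ QQbar (minorVec (stackE (E₂ m) (E₃ m)) p.2.2))) := by
        simp only [sysB, map_mul, map_genMinor]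
        rw [hpts, append3_comp_row12, append3_comp_row13, append3_comp_row23,
          minorVec_evalMatrix_of_isPtData 𝒞 hp12, minorVec_evalMatrix_of_isPtData 𝒞 hp13,
          minorVec_evalMatrix_of_isPtData 𝒞 hp23,
          Fermat.Agent.H98.MW.det_blockM, Fermat.Agent.H98.MW.det_blockM,
          Fermat.Agent.H98.MW.det_blockM]
      rw [e]
      simp only [map_mul]
      field_simp)
  rw [logHeight_prod4 (minorVec_ne_zero _ hl123) (minorVec_ne_zero _ hl1)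
      (minorVec_ne_zero _ hl2) (minorVec_ne_zero _ hl3),
    logHeight_prod3 (minorVec_ne_zero _ hl12) (minorVec_ne_zero _ hl13)
      (minorVec_ne_zero _ hl23), ← hg1, ← hg2, ← hg3, ← hg12, ← hg13, ← hg23, ← hg123] at hCy
  have hrew : 𝒞.gH m (I₁ * I₂ * I₃) - 𝒞.gH m (I₁ * I₂) - 𝒞.gH m (I₁ * I₃) - 𝒞.gH m (I₂ * I₃)
        + 𝒞.gH m I₁ + 𝒞.gH m I₂ + 𝒞.gH m I₃ =
      𝒞.gH m (I₁ * I₂ * I₃) + (𝒞.gH m I₁ + (𝒞.gH m I₂ + 𝒞.gH m I₃)) -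
        (𝒞.gH m (I₁ * I₂) + (𝒞.gH m (I₁ * I₃) + 𝒞.gH m (I₂ * I₃))) := by
    ring
  rw [hrew]
  exact hCy

end Fermat.Agent.H40.MW

end
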