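import Fermat.Agent.H40.MW.WCubeFinal
import Fermat.Agent.H68.MW.GTFinal
import Fermat.Agent.H88.MW.Basic
import Fermat.Agent.H89.MW.Lpf

/-!
# P-MW: SHIFT and WCUBE for every datum, unconditionally

`BasicStatement` (helper88), the GT principle (helper68 et al.) and the local product formula
(helper89 et al.) plugged into `shift_of_gt_lpf` and `wcube_of_gt_lpf`.
-/

set_option autoImplicit false

noncomputable section

namespace Fermat.Agent.H40.MW

open Fermat.Agent.H92.MW

variable {R : Type} [CommRing R] [Algebra ℚ R] [IsDedekindDomain R]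

/-- **WCUBE** for every datum. -/
theorem wcubeStatement (𝒞 : MWDatum R) : 𝒞.WCubeStatement :=
  wcube_of_gt_lpf 𝒞 (Fermat.Agent.H88.MW.basic 𝒞) Fermat.Agent.H68.GT.gtPrinciple
    (Fermat.Agent.H89.MW.lpfStatement 𝒞)

/-- **SHIFT** for every datum. -/
theorem shiftStatement (𝒞 : MWDatum R) : 𝒞.ShiftStatement :=
  shift_of_gt_lpf 𝒞 (Fermat.Agent.H88.MW.basic 𝒞) Fermat.Agent.H68.GT.gtPrinciple
    (Fermat.Agent.H89.MW.lpfStatement 𝒞)

end Fermat.Agent.H40.MW

end
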