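import Fermat.Agent.H40.MW.WCube
import Fermat.Agent.H40.MW.Adapters
import Fermat.Agent.H3.MW.ShiftFinal

/-!
# P-MW / GTA-9 (row 884): WCUBE and SHIFT from GT + LPF

All sub-rows (GTA-1 .. GTA-7) and Pluecker duality (K5) plugged in: the only remaining inputs
are `BasicStatement`, the GT principle and the local product formula.
-/

set_option autoImplicit false

noncomputable section

namespace Fermat.Agent.H40.MW

open Fermat.Agent.H92.MW Fermat.Agent.H3.MW

variable {R : Type} [CommRing R] [Algebra ℚ R] [IsDedekindDomain R]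

/-- **WCUBE** from the GT principle, the local product formula and Pluecker duality. -/
theorem wcube_of (𝒞 : MWDatum R) (hB : BasicStatement 𝒞) (hGT : GTPrincipleStatement)
    (hLPF : LPFStatement 𝒞) (hD : PluckerDualityHeightStatement) : 𝒞.WCubeStatement :=
  wcube 𝒞 hB hGT hLPF Fermat.Agent.H57.MW.tensorPoint
    (ptDataSquarefree_of_basic 𝒞 hB) (Fermat.Agent.H98.MW.ptDataMul 𝒞)
    (Fermat.Agent.H42.MW.gHEq 𝒞 hB hD)

/-- **WCUBE** from the GT principle and the local product formula. -/
theorem wcube_of_gt_lpf (𝒞 : MWDatum R) (hB : BasicStatement 𝒞) (hGT : GTPrincipleStatement)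
    (hLPF : LPFStatement 𝒞) : 𝒞.WCubeStatement :=
  wcube_of 𝒞 hB hGT hLPF pluckerDualityHeightStatement

/-- **SHIFT** from the GT principle and the local product formula. -/
theorem shift_of_gt_lpf (𝒞 : MWDatum R) (hB : BasicStatement 𝒞) (hGT : GTPrincipleStatement)
    (hLPF : LPFStatement 𝒞) : 𝒞.ShiftStatement :=
  shift_of 𝒞 hB hGT hLPF pluckerDualityHeightStatement

end Fermat.Agent.H40.MW

end
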