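import Fermat.Agent.H3.MW.Generic

/-!
# P-MW / GTA-9 (row 884): the WCUBE assembly, part 1

Row selections of a concatenated tuple, the two systems of products of generic minors, and the
valuative hypothesis of the GT principle from the local product formula.
-/

set_option autoImplicit false

noncomputable section

open Module

namespace Fermat.Agent.H40.MW

open Fermat.Agent.H92.MW Fermat.Agent.H3.MW

section rows

variable (d₁ d₂ d₃ : ℕ)

/-- the first block of `Fin (d₁ + d₂ + d₃)` -/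
def row1 : Fin d₁ → Fin (d₁ + d₂ + d₃) := Fin.castAdd d₃ ∘ Fin.castAdd d₂

/-- the second block -/
def row2 : Fin d₂ → Fin (d₁ + d₂ + d₃) := Fin.castAdd d₃ ∘ Fin.natAdd d₁

/-- the third block -/
def row3 : Fin d₃ → Fin (d₁ + d₂ + d₃) := Fin.natAdd (d₁ + d₂)

/-- the first two blocks -/
def row12 : Fin (d₁ + d₂) → Fin (d₁ + d₂ + d₃) := Fin.castAdd d₃

/-- the first and the third block -/
def row13 : Fin (d₁ + d₃) → Fin (d₁ + d₂ + d₃) := Fin.append (row1 d₁ d₂ d₃) (row3 d₁ d₂ d₃)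

/-- the second and the third block -/
def row23 : Fin (d₂ + d₃) → Fin (d₁ + d₂ + d₃) := Fin.append (row2 d₁ d₂ d₃) (row3 d₁ d₂ d₃)

variable {d₁ d₂ d₃}

lemma row1_injective : Function.Injective (row1 d₁ d₂ d₃) :=
  (Fin.castAdd_injective _ _).comp (Fin.castAdd_injective _ _)

lemma row2_injective : Function.Injective (row2 d₁ d₂ d₃) :=
  (Fin.castAdd_injective _ _).comp (Fin.natAdd_injective _ _)

lemma row3_injective : Function.Injective (row3 d₁ d₂ d₃) := Fin.natAdd_injective _ _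

lemma row12_injective : Function.Injective (row12 d₁ d₂ d₃) := Fin.castAdd_injective _ _

lemma row1_ne_row2 (a : Fin d₁) (b : Fin d₂) : row1 d₁ d₂ d₃ a ≠ row2 d₁ d₂ d₃ b := by
  intro h
  have := congrArg Fin.val h
  simp [row1, row2] at this
  omega

lemma row1_ne_row3 (a : Fin d₁) (b : Fin d₃) : row1 d₁ d₂ d₃ a ≠ row3 d₁ d₂ d₃ b := by
  intro h
  have := congrArg Fin.val h
  simp [row1, row3] at this
  omega

lemma row2_ne_row3 (a : Fin d₂) (b : Fin d₃) : row2 d₁ d₂ d₃ a ≠ row3 d₁ d₂ d₃ b := by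
  intro h
  have := congrArg Fin.val h
  simp [row2, row3] at this
  omega

/-- the concatenation of two injective maps with disjoint ranges is injective -/
lemma append_injective {α : Type*} {k l : ℕ} {f : Fin k → α} {g : Fin l → α}
    (hf : Function.Injective f) (hg : Function.Injective g) (hfg : ∀ a b, f a ≠ g b) :
    Function.Injective (Fin.append f g) := by
  intro a b
  induction a using Fin.addCases with
  | left a =>
    induction b using Fin.addCases with
    | left b =>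
      intro h
      rw [Fin.append_left, Fin.append_left] at h
      rw [hf h]
    | right b =>
      intro h
      rw [Fin.append_left, Fin.append_right] at h
      exact absurd h (hfg a b)
  | right a =>
    induction b using Fin.addCases with
    | left b =>
      intro h
      rw [Fin.append_right, Fin.append_left] at h
      exact absurd h.symm (hfg b a)
    | right b =>
      intro h
      rw [Fin.append_right, Fin.append_right] at h
      rw [hg h]

lemma row13_injective : Function.Injective (row13 d₁ d₂ d₃) :=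
  append_injective row1_injective row3_injective row1_ne_row3

lemma row23_injective : Function.Injective (row23 d₁ d₂ d₃) :=
  append_injective row2_injective row3_injective row2_ne_row3

/-- composition with a concatenation -/
lemma comp_append {α β : Type*} {k l : ℕ} (P : α → β) (f : Fin k → α) (g : Fin l → α) :
    P ∘ Fin.append f g = Fin.append (P ∘ f) (P ∘ g) := by
  funext a
  induction a using Fin.addCases with
  | left a => simp [Fin.append_left]
  | right a => simp [Fin.append_right]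

variable {X : Type*} (P : Fin (d₁ + d₂ + d₃) → X)

lemma comp_row12 : P ∘ row12 d₁ d₂ d₃ =
    Fin.append (P ∘ row1 d₁ d₂ d₃) (P ∘ row2 d₁ d₂ d₃) := by
  funext a
  induction a using Fin.addCases with
  | left a => simp [Fin.append_left, row12, row1]
  | right a => simp [Fin.append_right, row12, row2]

lemma comp_row13 : P ∘ row13 d₁ d₂ d₃ =
    Fin.append (P ∘ row1 d₁ d₂ d₃) (P ∘ row3 d₁ d₂ d₃) := comp_append P _ _

lemma comp_row23 : P ∘ row23 d₁ d₂ d₃ =
    Fin.append (P ∘ row2 d₁ d₂ d₃) (P ∘ row3 d₁ d₂ d₃) := comp_append P _ _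

lemma eq_append_rows : P =
    Fin.append (Fin.append (P ∘ row1 d₁ d₂ d₃) (P ∘ row2 d₁ d₂ d₃)) (P ∘ row3 d₁ d₂ d₃) := by
  funext a
  induction a using Fin.addCases with
  | left a =>
    rw [Fin.append_left]
    have := congrFun (comp_row12 P) a
    simpa [row12] using this
  | right a => simp [Fin.append_right, row3]

/-- two indices lie in a common pair of blocks -/
lemma exists_common_rows (a b : Fin (d₁ + d₂ + d₃)) :
    (∃ a' b', row12 d₁ d₂ d₃ a' = a ∧ row12 d₁ d₂ d₃ b' = b) ∨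
    (∃ a' b', row13 d₁ d₂ d₃ a' = a ∧ row13 d₁ d₂ d₃ b' = b) ∨
    (∃ a' b', row23 d₁ d₂ d₃ a' = a ∧ row23 d₁ d₂ d₃ b' = b) := by
  -- the block of an index
  have hblock : ∀ c : Fin (d₁ + d₂ + d₃), (∃ c', row1 d₁ d₂ d₃ c' = c) ∨
      (∃ c', row2 d₁ d₂ d₃ c' = c) ∨ (∃ c', row3 d₁ d₂ d₃ c' = c) := by
    intro c
    induction c using Fin.addCases with
    | left c =>
      induction c using Fin.addCases with
      | left c => exact Or.inl ⟨c, rfl⟩
      | right c => exact Or.inr (Or.inl ⟨c, rfl⟩)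
    | right c => exact Or.inr (Or.inr ⟨c, rfl⟩)
  have h12a : ∀ c', ∃ c'', row12 d₁ d₂ d₃ c'' = row1 d₁ d₂ d₃ c' :=
    fun c' => ⟨Fin.castAdd d₂ c', rfl⟩
  have h12b : ∀ c', ∃ c'', row12 d₁ d₂ d₃ c'' = row2 d₁ d₂ d₃ c' :=
    fun c' => ⟨Fin.natAdd d₁ c', rfl⟩
  have h13a : ∀ c', ∃ c'', row13 d₁ d₂ d₃ c'' = row1 d₁ d₂ d₃ c' :=
    fun c' => ⟨Fin.castAdd d₃ c', by simp [row13, Fin.append_left]⟩
  have h13b : ∀ c', ∃ c'', row13 d₁ d₂ d₃ c'' = row3 d₁ d₂ d₃ c' :=
    fun c' => ⟨Fin.natAdd d₁ c', by simp [row13, Fin.append_right]⟩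
  have h23a : ∀ c', ∃ c'', row23 d₁ d₂ d₃ c'' = row2 d₁ d₂ d₃ c' :=
    fun c' => ⟨Fin.castAdd d₃ c', by simp [row23, Fin.append_left]⟩
  have h23b : ∀ c', ∃ c'', row23 d₁ d₂ d₃ c'' = row3 d₁ d₂ d₃ c' :=
    fun c' => ⟨Fin.natAdd d₂ c', by simp [row23, Fin.append_right]⟩
  rcases hblock a with ⟨a', rfl⟩ | ⟨a', rfl⟩ | ⟨a', rfl⟩ <;>
    rcases hblock b with ⟨b', rfl⟩ | ⟨b', rfl⟩ | ⟨b', rfl⟩
  · obtain ⟨x, hx⟩ := h12a a'; obtain ⟨y, hy⟩ := h12a b'; exact Or.inl ⟨x, y, hx, hy⟩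
  · obtain ⟨x, hx⟩ := h12a a'; obtain ⟨y, hy⟩ := h12b b'; exact Or.inl ⟨x, y, hx, hy⟩
  · obtain ⟨x, hx⟩ := h13a a'; obtain ⟨y, hy⟩ := h13b b'; exact Or.inr (Or.inl ⟨x, y, hx, hy⟩)
  · obtain ⟨x, hx⟩ := h12b a'; obtain ⟨y, hy⟩ := h12a b'; exact Or.inl ⟨x, y, hx, hy⟩
  · obtain ⟨x, hx⟩ := h12b a'; obtain ⟨y, hy⟩ := h12b b'; exact Or.inl ⟨x, y, hx, hy⟩
  · obtain ⟨x, hx⟩ := h23a a'; obtain ⟨y, hy⟩ := h23b b'; exact Or.inr (Or.inr ⟨x, y, hx, hy⟩)
  · obtain ⟨x, hx⟩ := h13b a'; obtain ⟨y, hy⟩ := h13a b'; exact Or.inr (Or.inl ⟨x, y, hx, hy⟩)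
  · obtain ⟨x, hx⟩ := h23b a'; obtain ⟨y, hy⟩ := h23a b'; exact Or.inr (Or.inr ⟨x, y, hx, hy⟩)
  · obtain ⟨x, hx⟩ := h13b a'; obtain ⟨y, hy⟩ := h13b b'; exact Or.inr (Or.inl ⟨x, y, hx, hy⟩)

/-- a tuple which is not injective is not injective on a pair of blocks -/
lemma not_injective_rows (hP : ¬ Function.Injective P) :
    ¬ Function.Injective (P ∘ row12 d₁ d₂ d₃) ∨ ¬ Function.Injective (P ∘ row13 d₁ d₂ d₃) ∨
      ¬ Function.Injective (P ∘ row23 d₁ d₂ d₃) := by
  obtain ⟨a, b, hab, hne⟩ := Function.not_injective_iff.mp hP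
  rcases exists_common_rows a b with ⟨a', b', rfl, rfl⟩ | ⟨a', b', rfl, rfl⟩ | ⟨a', b', rfl, rfl⟩
  · exact Or.inl fun h => hne (congrArg _ (h hab))
  · exact Or.inr (Or.inl fun h => hne (congrArg _ (h hab)))
  · exact Or.inr (Or.inr fun h => hne (congrArg _ (h hab)))

end rows

end Fermat.Agent.H40.MW

end
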