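import Fermat.Agent.H40.MW.WCubeRows

/-!
# P-MW / GTA-9 (row 884): the WCUBE assembly, part 2

The two systems of products of generic minors, and the valuative hypothesis of the GT principle
from the local product formula.
-/

set_option autoImplicit false

noncomputable section

open Module

namespace Fermat.Agent.H40.MW

open Fermat.Agent.H92.MW Fermat.Agent.H3.MW

variable {R : Type} [CommRing R] [Algebra ℚ R] [IsDedekindDomain R]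

/-- index type of the first system -/
abbrev IdxA (n d₁ d₂ d₃ : ℕ) : Type :=
  MinorIdx n (d₁ + d₂ + d₃) × (MinorIdx n d₁ × (MinorIdx n d₂ × MinorIdx n d₃))

/-- index type of the second system -/
abbrev IdxB (n d₁ d₂ d₃ : ℕ) : Type :=
  MinorIdx n (d₁ + d₂) × (MinorIdx n (d₁ + d₃) × MinorIdx n (d₂ + d₃))

/-- the first system: `Δ₁₂₃ Δ₁ Δ₂ Δ₃` -/
def sysA (𝒞 : MWDatum R) (m d₁ d₂ d₃ : ℕ) :
    IdxA (finrank ℚ (𝒞.W m)) d₁ d₂ d₃ → TPow R (d₁ + d₂ + d₃) := fun p =>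
  genMinor 𝒞 m id p.1 * (genMinor 𝒞 m (row1 d₁ d₂ d₃) p.2.1 *
    (genMinor 𝒞 m (row2 d₁ d₂ d₃) p.2.2.1 * genMinor 𝒞 m (row3 d₁ d₂ d₃) p.2.2.2))

/-- the second system: `Δ₁₂ Δ₁₃ Δ₂₃` -/
def sysB (𝒞 : MWDatum R) (m d₁ d₂ d₃ : ℕ) :
    IdxB (finrank ℚ (𝒞.W m)) d₁ d₂ d₃ → TPow R (d₁ + d₂ + d₃) := fun p =>
  genMinor 𝒞 m (row12 d₁ d₂ d₃) p.1 * (genMinor 𝒞 m (row13 d₁ d₂ d₃) p.2.1 *
    genMinor 𝒞 m (row23 d₁ d₂ d₃) p.2.2)

section val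

variable (𝒞 : MWDatum R) {𝒦 : Type} [Field 𝒦] [Algebra ℚ 𝒦] (V : ValuationSubring 𝒦)

/-- the sup-norm of the maximal minors of the evaluation matrix of a tuple of points -/
def supMinor (m : ℕ) {k : ℕ} (Q : Fin k → (R →ₐ[ℚ] 𝒦)) : V.ValueGroup :=
  Finset.univ.sup fun J : MinorIdx (finrank ℚ (𝒞.W m)) k =>
    V.valuation (minorVec (evalMatrix 𝒞 m Q) J)

/-- the product of the `max(1, |t(P)|)` -/
def tProd {k : ℕ} (Q : Fin k → (R →ₐ[ℚ] 𝒦)) : V.ValueGroup :=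
  ∏ a : Fin k, max 1 (V.valuation (Q a 𝒞.t))

lemma supMinor_eq_zero (m : ℕ) {k : ℕ} (Q : Fin k → (R →ₐ[ℚ] 𝒦))
    (hQ : ¬ Function.Injective Q) : supMinor 𝒞 V m Q = 0 := by
  apply sup_eq_zero_of_forall
  intro J
  rw [minorVec_evalMatrix_eq_zero 𝒞 m Q hQ J, map_zero]

lemma tProd_append {k l : ℕ} (P : Fin k → (R →ₐ[ℚ] 𝒦)) (Q : Fin l → (R →ₐ[ℚ] 𝒦)) :
    tProd 𝒞 V (Fin.append P Q) = tProd 𝒞 V P * tProd 𝒞 V Q :=
  prod_append P Q fun x => max 1 (V.valuation (x 𝒞.t))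

variable {d₁ d₂ d₃ : ℕ} (m : ℕ) (y : TPow R (d₁ + d₂ + d₃) →ₐ[ℚ] 𝒦)

lemma sup_sysA :
    (Finset.univ.sup fun p => V.valuation (y (sysA 𝒞 m d₁ d₂ d₃ p))) =
      supMinor 𝒞 V m (pts y) * (supMinor 𝒞 V m (pts y ∘ row1 d₁ d₂ d₃) *
        (supMinor 𝒞 V m (pts y ∘ row2 d₁ d₂ d₃) * supMinor 𝒞 V m (pts y ∘ row3 d₁ d₂ d₃))) := by
  unfold supMinor
  rw [← sup_prod_eq, ← sup_prod_eq, ← sup_prod_eq]
  refine Finset.sup_congr rfl fun p _ => ?_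
  simp only [sysA, map_mul, map_genMinor, Function.comp_id]

lemma sup_sysB :
    (Finset.univ.sup fun p => V.valuation (y (sysB 𝒞 m d₁ d₂ d₃ p))) =
      supMinor 𝒞 V m (pts y ∘ row12 d₁ d₂ d₃) * (supMinor 𝒞 V m (pts y ∘ row13 d₁ d₂ d₃) *
        supMinor 𝒞 V m (pts y ∘ row23 d₁ d₂ d₃)) := by
  unfold supMinor
  rw [← sup_prod_eq, ← sup_prod_eq]
  refine Finset.sup_congr rfl fun p _ => ?_
  simp only [sysB, map_mul, map_genMinor]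

/-- the local product formula for a tuple, in terms of `supMinor`, `tProd`, `pairProd` -/
lemma lpf_apply {δ : (R →ₐ[ℚ] 𝒦) → (R →ₐ[ℚ] 𝒦) → V.ValueGroup}
    (hδ : ∀ (m d : ℕ), d + 𝒞.m₀ ≤ m → ∀ P : Fin d → (R →ₐ[ℚ] 𝒦), Function.Injective P →
        (Finset.univ.sup fun J => V.valuation (minorVec (evalMatrix 𝒞 m P) J)) ^ 𝒞.e =
          (∏ a : Fin d, max 1 (V.valuation (P a 𝒞.t))) ^ m *
            ∏ a : Fin d, ∏ b : Fin d, if a < b then δ (P a) (P b) else 1)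
    {k : ℕ} (hk : k + 𝒞.m₀ ≤ m) (Q : Fin k → (R →ₐ[ℚ] 𝒦)) (hQ : Function.Injective Q) :
    supMinor 𝒞 V m Q ^ 𝒞.e = tProd 𝒞 V Q ^ m * pairProd δ Q :=
  hδ m k hk Q hQ

/-- the abstract algebra behind the cube identity -/
lemma cube_algebra {Γ : Type*} [CommMonoid Γ] {e m : ℕ}
    (s s1 s2 s3 s12 s13 s23 T1 T2 T3 p p1 p2 p3 p12 p13 p23 : Γ)
    (h : s ^ e = (T1 * T2 * T3) ^ m * p)
    (h1 : s1 ^ e = T1 ^ m * p1) (h2 : s2 ^ e = T2 ^ m * p2) (h3 : s3 ^ e = T3 ^ m * p3)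
    (h12 : s12 ^ e = (T1 * T2) ^ m * p12) (h13 : s13 ^ e = (T1 * T3) ^ m * p13)
    (h23 : s23 ^ e = (T2 * T3) ^ m * p23)
    (hc : p * p1 * p2 * p3 = p12 * p13 * p23) :
    (s * (s1 * (s2 * s3))) ^ e = (s12 * (s13 * s23)) ^ e := by
  simp only [mul_pow]
  rw [h, h1, h2, h3, h12, h13, h23]
  simp only [mul_pow]
  generalize T1 ^ m = a
  generalize T2 ^ m = b
  generalize T3 ^ m = c
  calc a * b * c * p * (a * p1 * (b * p2 * (c * p3)))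
      = (a * b * c) * (a * b * c) * (p * p1 * p2 * p3) := by ac_rfl
    _ = (a * b * c) * (a * b * c) * (p12 * p13 * p23) := by rw [hc]
    _ = a * b * p12 * (a * c * p13 * (b * c * p23)) := by ac_rfl

/-- the cube identity for the sup-norms of the minors of a tuple of points -/
theorem supMinor_cube (hLPF : LPFStatement 𝒞) [IsAlgClosed 𝒦] (hV : IsQbarValRing V)
    (hm : d₁ + d₂ + d₃ + 𝒞.m₀ ≤ m) (P : Fin (d₁ + d₂ + d₃) → (R →ₐ[ℚ] 𝒦)) :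
    supMinor 𝒞 V m P * (supMinor 𝒞 V m (P ∘ row1 d₁ d₂ d₃) *
        (supMinor 𝒞 V m (P ∘ row2 d₁ d₂ d₃) * supMinor 𝒞 V m (P ∘ row3 d₁ d₂ d₃))) =
      supMinor 𝒞 V m (P ∘ row12 d₁ d₂ d₃) * (supMinor 𝒞 V m (P ∘ row13 d₁ d₂ d₃) *
        supMinor 𝒞 V m (P ∘ row23 d₁ d₂ d₃)) := by
  by_cases hinj : Function.Injective P
  · obtain ⟨δ, hδ⟩ := hLPF 𝒦 V hV
    have h1 := lpf_apply 𝒞 V m hδ (k := d₁) (by omega) (P ∘ row1 d₁ d₂ d₃)
      (hinj.comp row1_injective)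
    have h2 := lpf_apply 𝒞 V m hδ (k := d₂) (by omega) (P ∘ row2 d₁ d₂ d₃)
      (hinj.comp row2_injective)
    have h3 := lpf_apply 𝒞 V m hδ (k := d₃) (by omega) (P ∘ row3 d₁ d₂ d₃)
      (hinj.comp row3_injective)
    have h12 := lpf_apply 𝒞 V m hδ (k := d₁ + d₂) (by omega) (P ∘ row12 d₁ d₂ d₃)
      (hinj.comp row12_injective)
    have h13 := lpf_apply 𝒞 V m hδ (k := d₁ + d₃) (by omega) (P ∘ row13 d₁ d₂ d₃)
      (hinj.comp row13_injective)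
    have h23 := lpf_apply 𝒞 V m hδ (k := d₂ + d₃) (by omega) (P ∘ row23 d₁ d₂ d₃)
      (hinj.comp row23_injective)
    have h123 := lpf_apply 𝒞 V m hδ (k := d₁ + d₂ + d₃) hm P hinj
    have e12 : tProd 𝒞 V (P ∘ row12 d₁ d₂ d₃) =
        tProd 𝒞 V (P ∘ row1 d₁ d₂ d₃) * tProd 𝒞 V (P ∘ row2 d₁ d₂ d₃) := by
      rw [comp_row12, tProd_append]
    have e13 : tProd 𝒞 V (P ∘ row13 d₁ d₂ d₃) =
        tProd 𝒞 V (P ∘ row1 d₁ d₂ d₃) * tProd 𝒞 V (P ∘ row3 d₁ d₂ d₃) := by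
      rw [comp_row13, tProd_append]
    have e23 : tProd 𝒞 V (P ∘ row23 d₁ d₂ d₃) =
        tProd 𝒞 V (P ∘ row2 d₁ d₂ d₃) * tProd 𝒞 V (P ∘ row3 d₁ d₂ d₃) := by
      rw [comp_row23, tProd_append]
    have e123 : tProd 𝒞 V P =
        tProd 𝒞 V (P ∘ row1 d₁ d₂ d₃) * tProd 𝒞 V (P ∘ row2 d₁ d₂ d₃) *
          tProd 𝒞 V (P ∘ row3 d₁ d₂ d₃) := by
      conv_lhs => rw [eq_append_rows P]
      rw [tProd_append, tProd_append]
    have hcube : pairProd δ P * pairProd δ (P ∘ row1 d₁ d₂ d₃) *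
        pairProd δ (P ∘ row2 d₁ d₂ d₃) * pairProd δ (P ∘ row3 d₁ d₂ d₃) =
        pairProd δ (P ∘ row12 d₁ d₂ d₃) * pairProd δ (P ∘ row13 d₁ d₂ d₃) *
          pairProd δ (P ∘ row23 d₁ d₂ d₃) := by
      have := pairProd_cube δ (P ∘ row1 d₁ d₂ d₃) (P ∘ row2 d₁ d₂ d₃) (P ∘ row3 d₁ d₂ d₃)
      rw [← eq_append_rows P, ← comp_row12, ← comp_row13, ← comp_row23] at this
      exact this
    rw [e12] at h12
    rw [e13] at h13
    rw [e23] at h23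
    rw [e123] at h123
    exact eq_of_pow_eq 𝒞.e_pos
      (cube_algebra _ _ _ _ _ _ _ _ _ _ _ _ _ _ _ _ _ h123 h1 h2 h3 h12 h13 h23 hcube)
  · rw [supMinor_eq_zero 𝒞 V m P hinj, zero_mul]
    rcases not_injective_rows P hinj with h | h | h
    · rw [supMinor_eq_zero 𝒞 V m _ h, zero_mul]
    · rw [supMinor_eq_zero 𝒞 V m _ h, zero_mul, mul_zero]
    · rw [supMinor_eq_zero 𝒞 V m _ h, mul_zero, mul_zero]

/-- **The valuative identity**: the sup-norms of the two systems agree at every point of the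
tensor power with values in a test object. -/
theorem sup_sysA_eq_sup_sysB (hLPF : LPFStatement 𝒞) [IsAlgClosed 𝒦] (hV : IsQbarValRing V)
    (hm : d₁ + d₂ + d₃ + 𝒞.m₀ ≤ m) :
    (Finset.univ.sup fun p => V.valuation (y (sysA 𝒞 m d₁ d₂ d₃ p))) =
      Finset.univ.sup fun p => V.valuation (y (sysB 𝒞 m d₁ d₂ d₃ p)) := by
  rw [sup_sysA, sup_sysB]
  exact supMinor_cube 𝒞 V m hLPF hV hm (pts y)

end val

end Fermat.Agent.H40.MW

end
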